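import Fermat.Agent.MultTableExponent.Tilt
import Fermat.Agent.Root.SummarySatheSelberg
import Fermat.Agent.Root.SummaryErdosKac

/-!
# Coprime pairs with evenly spread prime factors

By the formula of Sathe and Selberg there are `N² / (log N) ^ (δ + o (1))` pairs with
`ω a + ω b ≤ c log log N`; those with more than `(c r / R + η) log log N` prime factors below
`exp ((log N) ^ (r / R))` for some `r` are fewer by a power of `log N`, and the common divisor costs
at most `(log N) ^ η`.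
-/

set_option autoImplicit false

noncomputable section

namespace FA.MultTableExponent

open Finset Filter
open FA.ErdosKac (loglog tendsto_loglog)
open scoped Topology Classical ArithmeticFunction.omega

/-- `exp ((log N) ^ (r / R))`. -/
def scaleCut (R r N : ℕ) : ℕ := ⌊Real.exp (Real.exp ((r : ℝ) / R * loglog N))⌋₊

/-- The pairs with the prime factors spread evenly over the scales. -/
def evenPairs (N R : ℕ) (η : ℝ) : Finset (ℕ × ℕ) :=
  (lowPairs N (critRate * loglog N)).filter fun p => ∀ r ∈ Icc 1 R,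
    ((omegaBelow (scaleCut R r N) p.1 + omegaBelow (scaleCut R r N) p.2 : ℕ) : ℝ) ≤
      (critRate * ((r : ℝ) / R) + η) * loglog N

theorem mem_evenPairs {N R : ℕ} {η : ℝ} {p : ℕ × ℕ} : p ∈ evenPairs N R η ↔
    p ∈ lowPairs N (critRate * loglog N) ∧ ∀ r ∈ Icc 1 R,
      ((omegaBelow (scaleCut R r N) p.1 + omegaBelow (scaleCut R r N) p.2 : ℕ) : ℝ) ≤
        (critRate * ((r : ℝ) / R) + η) * loglog N := by
  rw [evenPairs]
  exact @Finset.mem_filter _ _ (_) _ _

theorem evenPairs_subset (N R : ℕ) (η : ℝ) :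
    evenPairs N R η ⊆ lowPairs N (critRate * loglog N) := fun _ hp => (mem_evenPairs.1 hp).1

/-- The coprime ones among them. -/
def coprimeEvenPairs (N R : ℕ) (η : ℝ) : Finset (ℕ × ℕ) :=
  (evenPairs N R η).filter fun p => p.1.Coprime p.2

theorem two_le_scaleCut {R r N : ℕ} (hL : 0 ≤ loglog N) : 2 ≤ scaleCut R r N := by
  refine Nat.le_floor ?_
  push_cast
  have h1 : 1 ≤ Real.exp ((r : ℝ) / R * loglog N) := Real.one_le_exp (by positivity)
  linarith [Real.add_one_le_exp (Real.exp ((r : ℝ) / R * loglog N))]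

theorem loglog_le_of_le_scaleCut {R r N m : ℕ} (hm : 2 ≤ m) (h : m ≤ scaleCut R r N) :
    loglog m ≤ (r : ℝ) / R * loglog N := by
  have h1 : Real.log m ≤ Real.exp ((r : ℝ) / R * loglog N) := by
    rw [← Real.log_exp (Real.exp ((r : ℝ) / R * loglog N))]
    exact Real.log_le_log (Nat.cast_pos.2 (by omega))
      ((Nat.cast_le.2 h).trans (Nat.floor_le (Real.exp_nonneg _)))
  exact (Real.log_le_log (Real.log_pos (Nat.one_lt_cast.2 (by omega))) h1).trans_eq
    (Real.log_exp _)

theorem factorial_le (m : ℕ) :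
    (m.factorial : ℝ) ≤ ((m : ℝ) + 1) ^ (m + 1) * Real.exp (-(m : ℝ)) := by
  induction m with
  | zero => simp
  | succ m ih =>
    rw [Nat.factorial_succ]
    push_cast
    refine (mul_le_mul_of_nonneg_left ih (by positivity)).trans ?_
    have h1 : Real.exp 1 ≤ (((m : ℝ) + 1 + 1) / ((m : ℝ) + 1)) ^ (m + 2) := by
      have hq : 0 < ((m : ℝ) + 1 + 1) / ((m : ℝ) + 1) := by positivity
      rw [← Real.exp_log (pow_pos hq (m + 2))]
      refine Real.exp_le_exp.2 ?_
      rw [Real.log_pow]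
      have h := mul_le_mul_of_nonneg_left (Real.one_sub_inv_le_log_of_pos hq)
        (show (0 : ℝ) ≤ (m + 2 : ℕ) by positivity)
      refine le_trans (le_of_eq ?_) h
      push_cast
      field_simp
      ring
    rw [div_pow, le_div_iff₀ (by positivity)] at h1
    rw [show -((m : ℝ) + 1) = -(m : ℝ) + -1 by ring, Real.exp_add, Real.exp_neg 1,
      mul_comm (Real.exp (-(m : ℝ))) _, ← mul_assoc, ← mul_assoc]
    refine mul_le_mul_of_nonneg_right ?_ (Real.exp_nonneg _)
    rw [← div_eq_mul_inv, le_div_iff₀ (Real.exp_pos 1), ← pow_succ', mul_comm]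
    exact h1

/-- `#{n ≤ N : ω n = k}` at `k = c log log N / 2`. -/
theorem exists_le_omega_count : ∃ κ : ℝ, 0 < κ ∧ ∀ᶠ N : ℕ in atTop,
    κ * (N * Real.exp (-(tableExponent / 2) * loglog N - Real.log (loglog N))) ≤
      (((Icc 1 N).filter fun n : ℕ =>
        ω n = ⌊critRate / 2 * loglog N⌋₊).card : ℝ) := by
  obtain ⟨hc, hc'⟩ := critRate_bounds
  obtain ⟨q, hq⟩ : ∃ q, q = critRate / 2 := ⟨_, rfl⟩
  have hq0 : 0 < q := by linarith
  obtain ⟨φ, hφ⟩ : ∃ φ : ℝ,
      φ = (∏' p : Nat.Primes, (1 + q / (((p : ℕ) : ℝ) - 1)) * (1 - 1 / ((p : ℕ) : ℝ)) ^ q) /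
        Real.Gamma (q + 1) := ⟨_, rfl⟩
  have hφ0 : 0 < φ := hφ ▸ FA.Summary.sathe_selberg_constant_pos hq0.le
  have hlim : Tendsto (fun N : ℕ => (⌊q * loglog N⌋₊ : ℝ) / loglog N) atTop (𝓝 q) :=
    (tendsto_nat_floor_mul_div_atTop hq0.le).comp tendsto_loglog
  have hk : ∀ᶠ N : ℕ in atTop, 1 ≤ ⌊q * loglog N⌋₊ :=
    (tendsto_nat_floor_atTop.comp (tendsto_loglog.const_mul_atTop hq0)).eventually_ge_atTop 1
  refine ⟨φ / 2 * Real.exp (-4), by positivity, ?_⟩
  filter_upwards [(FA.Summary.sathe_selberg_limit (fun N : ℕ => ⌊q * loglog N⌋₊) hk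
      hlim).eventually_const_lt (hφ ▸ half_lt_self hφ0), hk,
    tendsto_loglog.eventually_ge_atTop 1, eventually_ge_atTop 2] with N hcount hk1 hL hN
  rw [← hq]
  obtain ⟨m, hm⟩ : ∃ m, ⌊q * loglog N⌋₊ = m + 1 := ⟨_, (Nat.sub_add_cancel hk1).symm⟩
  rw [hm, Nat.add_sub_cancel] at hcount
  rw [hm]
  obtain ⟨L, hLdef⟩ : ∃ L, L = loglog N := ⟨_, rfl⟩
  have hlN : 0 < Real.log N := Real.log_pos (Nat.one_lt_cast.2 (by omega))
  have hexpL : Real.exp (-L) = (Real.log N)⁻¹ := by
    rw [Real.exp_neg, hLdef, loglog, Real.exp_log hlN]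
  rw [← hLdef] at hL hm ⊢
  rw [show Real.log (Real.log (N : ℝ)) = L from hLdef.symm] at hcount
  have hL0 : 0 < L := by linarith
  have hN0 : (0 : ℝ) < N := Nat.cast_pos.2 (by omega)
  rw [lt_div_iff₀ (by positivity)] at hcount
  refine le_trans ?_ hcount.le
  rw [← hφ, mul_assoc (φ / 2), div_eq_mul_inv (N : ℝ), ← hexpL, mul_assoc (N : ℝ)]
  refine mul_le_mul_of_nonneg_left ?_ (by positivity)
  rw [mul_left_comm]
  refine mul_le_mul_of_nonneg_left ?_ (Nat.cast_nonneg N)
  have hk' : ((m : ℝ) + 1) ≤ q * L := by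
    have := Nat.floor_le (show 0 ≤ q * L by positivity)
    rw [hm] at this
    exact_mod_cast this
  have hk'' : q * L - 1 ≤ (m : ℝ) + 1 := by
    have := Nat.lt_floor_add_one (q * L)
    rw [hm] at this
    push_cast at this
    linarith
  have hlogk : Real.log ((m : ℝ) + 1) ≤ Real.log q + Real.log L := by
    rw [← Real.log_mul hq0.ne' hL0.ne']
    exact Real.log_le_log (by positivity) hk'
  have hfac : L ^ m * Real.exp (m : ℝ) / ((m : ℝ) + 1) ^ (m + 1) ≤ L ^ m / m.factorial := by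
    rw [div_le_div_iff₀ (by positivity) (Nat.cast_pos.2 m.factorial_pos)]
    have h := mul_le_mul_of_nonneg_left (factorial_le m)
      (show 0 ≤ L ^ m * Real.exp (m : ℝ) by positivity)
    rw [Real.exp_neg] at h
    refine h.trans (le_of_eq ?_)
    field_simp
  refine le_trans ?_ (mul_le_mul_of_nonneg_left hfac (Real.exp_nonneg _))
  rw [show L ^ m = Real.exp ((m : ℝ) * Real.log L) by rw [Real.exp_nat_mul, Real.exp_log hL0],
    show ((m : ℝ) + 1) ^ (m + 1) = Real.exp (((m + 1 : ℕ) : ℝ) * Real.log ((m : ℝ) + 1)) by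
      rw [Real.exp_nat_mul, Real.exp_log (by positivity)],
    ← Real.exp_add, ← Real.exp_add, ← Real.exp_sub, ← Real.exp_add]
  refine Real.exp_le_exp.2 ?_
  push_cast
  have hlq : Real.log q ≤ 0 := Real.log_nonpos hq0.le (by linarith)
  have hlq' : -1 ≤ Real.log q := by
    have h := Real.one_sub_inv_le_log_of_pos hq0
    have h2 : q⁻¹ ≤ 2 := by rw [inv_le_comm₀ hq0 two_pos]; linarith
    linarith
  have h1 := mul_le_mul_of_nonneg_left hlogk (show (0 : ℝ) ≤ (m : ℝ) + 1 by positivity)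
  have h2 := mul_le_mul_of_nonneg_right hk'' (show 0 ≤ 1 - Real.log q by linarith)
  have h3 : tableExponent / 2 = 1 - q + q * Real.log q := by
    rw [tableExponent_eq, hq, Real.log_div (by linarith) two_ne_zero]
    linarith [critRate_mul_log_two]
  rw [h3]
  linarith

theorem eventually_many_pairs {ε : ℝ} (hε : 0 < ε) : ∀ᶠ N : ℕ in atTop,
    (N : ℝ) ^ 2 * Real.exp (-(tableExponent + ε) * loglog N) ≤
      (lowPairs N (critRate * loglog N)).card := by
  obtain ⟨κ, hκ, hcount⟩ := exists_le_omega_count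
  filter_upwards [hcount, tendsto_loglog.eventually_ge_atTop 1,
    (tendsto_loglog.eventually ((Real.isLittleO_log_id_atTop).def (show 0 < ε / 4 by positivity))),
    tendsto_loglog.eventually_ge_atTop (-4 * Real.log κ / ε)] with N hN hL hlog hκL
  obtain ⟨S, hS⟩ : ∃ S, S = (Icc 1 N).filter fun n : ℕ =>
      ω n = ⌊critRate / 2 * loglog N⌋₊ := ⟨_, rfl⟩
  rw [← hS] at hN
  have hsub : S ×ˢ S ⊆ lowPairs N (critRate * loglog N) := fun p hp => by
    obtain ⟨a, b⟩ := p
    obtain ⟨ha, hb⟩ := mem_product.1 hp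
    rw [hS, mem_filter, mem_Icc] at ha hb
    refine mem_lowPairs.2 ⟨ha.1, hb.1, ?_⟩
    have h := Nat.floor_le (mul_nonneg (show 0 ≤ critRate / 2 by linarith [critRate_bounds.1])
      (show 0 ≤ loglog N by linarith))
    rw [← FA.ErdosKac.Summary.omega_eq, ← FA.ErdosKac.Summary.omega_eq, ha.2, hb.2]
    push_cast
    linarith
  refine le_trans ?_ (Nat.cast_le.2 (card_le_card hsub))
  rw [card_product, Nat.cast_mul, ← sq]
  refine le_trans ?_ (pow_le_pow_left₀ (by positivity) hN 2)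
  rw [mul_pow, mul_pow, mul_left_comm, ← Real.exp_log (pow_pos hκ 2), ← Real.exp_nat_mul,
    ← Real.exp_add]
  refine mul_le_mul_of_nonneg_left (Real.exp_le_exp.2 ?_) (sq_nonneg _)
  rw [id, Real.norm_eq_abs, Real.norm_of_nonneg (by linarith : 0 ≤ loglog N)] at hlog
  rw [div_le_iff₀ hε] at hκL
  rw [Real.log_pow]
  push_cast
  linarith [le_abs_self (Real.log (loglog N))]

/-- **The exceptions.** -/
theorem exists_exception_le {η : ℝ} (hη : 0 < η) (hη1 : η ≤ 1) : ∃ C : ℝ, 0 < C ∧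
    ∀ᶠ N : ℕ in atTop, ∀ R r : ℕ, 1 ≤ r → r ≤ R →
    (((lowPairs N (critRate * loglog N)).filter fun p =>
      (critRate * ((r : ℝ) / R) + η) * loglog N <
        ((omegaBelow (scaleCut R r N) p.1 + omegaBelow (scaleCut R r N) p.2 : ℕ) : ℝ)).card : ℝ) ≤
      C * N ^ 2 * Real.exp (-(tableExponent + η ^ 2 / 16) * loglog N) := by
  obtain ⟨CT, hCT, hT⟩ := exists_sum_tilt_le
  obtain ⟨hc, hc'⟩ := critRate_bounds
  obtain ⟨y, hy⟩ : ∃ y, y = critRate / 2 := ⟨_, rfl⟩
  obtain ⟨z, hz⟩ : ∃ z, z = 1 + η / 4 := ⟨_, rfl⟩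
  have hy0 : 0 < y := by linarith
  have hz0 : 0 < z := by linarith
  have hyz : y * z ≤ 2 := by
    have := mul_le_mul (show y ≤ 0.725 by linarith) (show z ≤ 1.25 by linarith) hz0.le
      (by norm_num)
    linarith
  refine ⟨CT ^ 2, by positivity, ?_⟩
  filter_upwards [tendsto_loglog.eventually_ge_atTop 0, eventually_ge_atTop 2]
    with N hL hN R r hr hrR
  obtain ⟨L, hLdef⟩ : ∃ L, L = loglog N := ⟨_, rfl⟩
  rw [← hLdef] at hL ⊢
  obtain ⟨τ, hτ⟩ : ∃ τ, τ = (r : ℝ) / R := ⟨_, rfl⟩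
  have hτ0 : 0 ≤ τ := hτ ▸ by positivity
  have hτ1 : τ ≤ 1 := by
    rw [hτ, div_le_one (Nat.cast_pos.2 (by omega))]
    exact Nat.cast_le.2 hrR
  rw [← hτ]
  obtain ⟨w, hw⟩ : ∃ w, w = scaleCut R r N := ⟨_, rfl⟩
  have hw2 : 2 ≤ w := hw ▸ two_le_scaleCut (hLdef ▸ hL)
  rw [← hw]
  have hmin : loglog (min w N) ≤ τ * L := by
    have := loglog_le_of_le_scaleCut (R := R) (r := r) (N := N) (le_min hw2 hN)
      ((min_le_left w N).trans hw.le)
    rwa [← hτ, ← hLdef] at this
  have hpair := card_mul_le_sum_sq (fun n => tilt_nonneg hy0.le hz0.le w n) (X := N)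
    (S := (lowPairs N (critRate * L)).filter fun p =>
      (critRate * τ + η) * L < ((omegaBelow w p.1 + omegaBelow w p.2 : ℕ) : ℝ))
    ((filter_subset _ _).trans (filter_subset _ _))
    (m := Real.exp (critRate * L * Real.log y + (critRate * τ + η) * L * Real.log z))
    fun p hp => by
      obtain ⟨hp, hbig⟩ := mem_filter.1 hp
      obtain ⟨ha, hb, hab⟩ := mem_lowPairs.1 hp
      rw [tilt, tilt, if_neg (by omega), if_neg (by omega), mul_mul_mul_comm, ← pow_add,
        ← pow_add, ← Real.exp_log (pow_pos hy0 _), ← Real.exp_log (pow_pos hz0 _),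
        ← Real.exp_add, Real.log_pow, Real.log_pow]
      refine Real.exp_le_exp.2 (add_le_add ?_ ?_)
      · exact mul_le_mul_of_nonpos_right hab (Real.log_nonpos hy0.le (by linarith))
      · exact mul_le_mul_of_nonneg_right hbig.le (Real.log_nonneg (by linarith))
  have hsum := hT y z hy0.le hz0.le (by linarith) hyz N w hN hw2
  rw [← hLdef] at hsum
  rw [← le_div_iff₀ (Real.exp_pos _), div_eq_mul_inv, ← Real.exp_neg] at hpair
  refine hpair.trans ((mul_le_mul_of_nonneg_right (pow_le_pow_left₀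
    (sum_nonneg fun n _ => tilt_nonneg hy0.le hz0.le w n) (hsum.trans (mul_le_mul_of_nonneg_left
      (Real.exp_le_exp.2 (add_le_add le_rfl (mul_le_mul_of_nonneg_left hmin
        (mul_nonneg hy0.le (by linarith))))) (by positivity))) 2) (Real.exp_nonneg _)).trans ?_)
  rw [mul_pow, mul_pow, ← Real.exp_nat_mul, mul_assoc _ _ (Real.exp (-(_ + _))), ← Real.exp_add]
  refine mul_le_mul_of_nonneg_left (Real.exp_le_exp.2 ?_) (by positivity)
  have hlz : η / 5 ≤ Real.log z := by
    refine le_trans ?_ (Real.one_sub_inv_le_log_of_pos hz0)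
    rw [le_sub_iff_add_le, ← le_sub_iff_add_le', inv_le_iff_one_le_mul₀ hz0, hz]
    have := mul_le_mul_of_nonneg_left hη1 hη.le
    linarith
  have key : critRate * τ * (η / 4 - Real.log z) - η * Real.log z ≤ -(η ^ 2 / 16) := by
    have h1 : η / 4 - Real.log z ≤ η ^ 2 / 16 := by
      have h := Real.one_sub_inv_le_log_of_pos hz0
      have h2 : 1 - η / 4 + η ^ 2 / 16 ≥ z⁻¹ := by
        rw [ge_iff_le, inv_le_iff_one_le_mul₀ hz0, hz]
        have := pow_nonneg hη.le 3
        linarith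
      linarith
    have h2 := mul_le_mul_of_nonneg_left hlz hη.le
    have h3 := mul_le_mul (mul_le_mul hc'.le hτ1 hτ0 (by norm_num)) le_rfl
      (by positivity : (0 : ℝ) ≤ η ^ 2 / 16) (by norm_num)
    have h4 := mul_le_mul_of_nonneg_left h1 (mul_nonneg (by linarith : 0 ≤ critRate) hτ0)
    linarith [sq_nonneg η]
  have h5 := mul_le_mul_of_nonneg_right key hL
  have h6 : (2 * (critRate / 2 - 1) + -(critRate * Real.log (critRate / 2))) * L =
      -tableExponent * L := by rw [← exponent_half]; ring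
  rw [show z - 1 = η / 4 by linarith, hy]
  push_cast
  linarith

/-- **The coprime evenly spread pairs are many.** -/
theorem eventually_many_coprime {η : ℝ} (hη : 0 < η) (hη1 : η ≤ 1) (R : ℕ) :
    ∀ᶠ N : ℕ in atTop, (N : ℝ) ^ 2 * Real.exp (-(tableExponent + 2 * η) * loglog N) ≤
      (coprimeEvenPairs N R η).card := by
  obtain ⟨CE, hCE, hexc⟩ := exists_exception_le hη hη1
  obtain ⟨CL, hCL, hlow⟩ := exists_sum_lowPairs_le
  filter_upwards [eventually_many_pairs (show 0 < η ^ 2 / 32 by positivity), hexc, hlow,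
    tendsto_loglog.eventually_ge_atTop 0,
    (Real.tendsto_exp_atTop.comp (tendsto_loglog.const_mul_atTop
      (show 0 < η ^ 2 / 32 by positivity))).eventually_ge_atTop (2 * R * CE + 8 * CL + 8)]
    with N hP hexc hlow hL hbig
  simp only [Function.comp_apply] at hbig
  obtain ⟨L, hLdef⟩ : ∃ L, L = loglog N := ⟨_, rfl⟩
  rw [← hLdef] at hP hexc hlow hL hbig ⊢
  obtain ⟨B, hB⟩ : ∃ B, B = (N : ℝ) ^ 2 * Real.exp (-(tableExponent + η ^ 2 / 32) * L) :=
    ⟨_, rfl⟩
  rw [← hB] at hP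
  have hB0 : 0 ≤ B := hB ▸ by positivity
  have hsq : η ^ 2 ≤ η := (pow_le_pow_of_le_one hη.le hη1 one_le_two).trans_eq (pow_one η)
  have hdec : ∀ K t : ℝ, 0 ≤ K → η ^ 2 / 16 ≤ t →
      K * (N : ℝ) ^ 2 * Real.exp (-(tableExponent + t) * L) *
        Real.exp (η ^ 2 / 32 * L) ≤ K * B := fun K t hK ht => by
    rw [hB, mul_assoc, mul_assoc, ← Real.exp_add]
    refine mul_le_mul_of_nonneg_left (mul_le_mul_of_nonneg_left (Real.exp_le_exp.2 ?_)
      (sq_nonneg _)) hK
    have := mul_le_mul_of_nonneg_right ht hL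
    linarith
  -- the exceptions are negligible
  have hgood : B / 2 ≤ (evenPairs N R η).card := by
    have hsub : lowPairs N (critRate * L) ⊆ evenPairs N R η ∪ (Icc 1 R).biUnion fun r =>
        (lowPairs N (critRate * L)).filter fun p => (critRate * ((r : ℝ) / R) + η) * L <
          ((omegaBelow (scaleCut R r N) p.1 + omegaBelow (scaleCut R r N) p.2 : ℕ) : ℝ) := by
      intro p hp
      rw [mem_union]
      by_cases h : p ∈ evenPairs N R η
      · exact Or.inl h
      refine Or.inr ?_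
      rw [mem_evenPairs, ← hLdef, not_and] at h
      by_contra hc
      refine h hp fun r hr => not_lt.1 fun hlt => hc (mem_biUnion.2 ⟨r, hr, ?_⟩)
      exact mem_filter.2 ⟨hp, hlt⟩
    have h1 := hP.trans ((Nat.cast_le.2 ((card_le_card hsub).trans ((card_union_le _ _).trans
      (Nat.add_le_add le_rfl card_biUnion_le)))).trans_eq (Nat.cast_add _ _))
    rw [Nat.cast_sum] at h1
    have h2 := (sum_le_card_nsmul (Icc 1 R) _ _ fun r hr =>
      hexc R r (mem_Icc.1 hr).1 (mem_Icc.1 hr).2)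
    rw [Nat.card_Icc, Nat.add_sub_cancel, nsmul_eq_mul] at h2
    have h3 := hdec ((R : ℝ) * CE) (η ^ 2 / 16) (by positivity) le_rfl
    have h4 : ((R : ℝ) * CE * (N : ℝ) ^ 2 * Real.exp (-(tableExponent + η ^ 2 / 16) * L)) *
        (2 * R * CE + 8 * CL + 8) ≤ R * CE * B :=
      (mul_le_mul_of_nonneg_left hbig (by positivity)).trans h3
    have h5 : (R : ℝ) * CE * (N : ℝ) ^ 2 * Real.exp (-(tableExponent + η ^ 2 / 16) * L) ≤
        B / 2 := by
      rw [← mul_le_mul_iff_of_pos_right (show 0 < 2 * (R : ℝ) * CE + 8 * CL + 8 by positivity)]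
      refine h4.trans ?_
      have := mul_nonneg hB0 hCL.le
      linarith
    linarith
  obtain ⟨G, hG⟩ : ∃ G, G = ⌈Real.exp (η * L)⌉₊ := ⟨_, rfl⟩
  have hG1 : Real.exp (η * L) ≤ (G : ℝ) + 1 := by
    rw [hG]; linarith [Nat.le_ceil (Real.exp (η * L))]
  have hG2 : (G : ℝ) ≤ 2 * Real.exp (η * L) := by
    rw [hG]
    linarith [Nat.ceil_lt_add_one (Real.exp_nonneg (η * L)),
      Real.one_le_exp (show 0 ≤ η * L by positivity)]
  -- the reduction to coprime pairs
  have hred : ((evenPairs N R η).card : ℝ) ≤ (G : ℝ) * (coprimeEvenPairs N R η).card +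
      ∑ g ∈ Icc (G + 1) N, ((lowPairs (N / g) (critRate * L)).card : ℝ) := by
    obtain ⟨T, hTdef⟩ : ∃ T : ℕ → Finset (ℕ × ℕ), T = fun g =>
        if g ≤ G then coprimeEvenPairs N R η else lowPairs (N / g) (critRate * L) := ⟨_, rfl⟩
    have h1 := card_le_sum_of_gcd (S := evenPairs N R η) (T := T)
      ((evenPairs_subset N R η).trans (filter_subset _ _))
      fun a b g u v hab hg ha hb huv => by
        rw [mem_evenPairs, mem_lowPairs] at hab
        obtain ⟨⟨⟨ha1, haN⟩, ⟨hb1, hbN⟩, hω⟩, heven⟩ := hab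
        have hu : u ∣ a := ha ▸ dvd_mul_left u g
        have hv : v ∣ b := hb ▸ dvd_mul_left v g
        have hu1 : 1 ≤ u := Nat.pos_of_ne_zero fun h => by rw [h, mul_zero] at ha; omega
        have hv1 : 1 ≤ v := Nat.pos_of_ne_zero fun h => by rw [h, mul_zero] at hb; omega
        have hω' : ((u.primeFactors.card + v.primeFactors.card : ℕ) : ℝ) ≤ critRate * L :=
          le_trans (Nat.cast_le.2 (Nat.add_le_add
            (card_le_card (Nat.primeFactors_mono hu (by omega)))
            (card_le_card (Nat.primeFactors_mono hv (by omega))))) (hLdef ▸ hω)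
        rw [hTdef]
        dsimp only
        split_ifs with hgG
        · rw [coprimeEvenPairs, mem_filter, mem_evenPairs, mem_lowPairs]
          refine ⟨⟨⟨⟨hu1, (Nat.le_of_dvd ha1 hu).trans haN⟩,
            ⟨hv1, (Nat.le_of_dvd hb1 hv).trans hbN⟩, hLdef ▸ hω'⟩, fun r hr =>
            le_trans (Nat.cast_le.2 (Nat.add_le_add (omegaBelow_mono hu (by omega))
              (omegaBelow_mono hv (by omega)))) (heven r hr)⟩, huv⟩
        · refine mem_lowPairs.2 ⟨⟨hu1, ?_⟩, ⟨hv1, ?_⟩, hω'⟩ <;>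
            rw [Nat.le_div_iff_mul_le hg, mul_comm]
          · exact ha ▸ haN
          · exact hb ▸ hbN
    refine (Nat.cast_le.2 h1).trans ?_
    rw [Nat.cast_sum, ← sum_filter_add_sum_filter_not (Icc 1 N) (fun g => g ≤ G)]
    refine add_le_add ((sum_le_card_nsmul _ _ ((coprimeEvenPairs N R η).card : ℝ)
      fun g hg => ?_).trans ?_) ?_
    · rw [hTdef]
      simp [(mem_filter.1 hg).2]
    · rw [nsmul_eq_mul]
      refine mul_le_mul_of_nonneg_right (Nat.cast_le.2 ((card_le_card (t := Icc 1 G)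
        fun g hg => mem_Icc.2 ⟨(mem_Icc.1 (mem_filter.1 hg).1).1, (mem_filter.1 hg).2⟩).trans
          (by simp))) (Nat.cast_nonneg _)
    · refine le_of_eq_of_le (sum_congr rfl fun g hg => ?_) (sum_le_sum_of_subset_of_nonneg
        (fun g hg => ?_) fun _ _ _ => Nat.cast_nonneg _)
      · rw [hTdef]
        simp [(mem_filter.1 hg).2]
      · obtain ⟨hg, hgG⟩ := mem_filter.1 hg
        exact mem_Icc.2 ⟨by omega, (mem_Icc.1 hg).2⟩
  have htail : CL * N ^ 2 * (Real.exp (-tableExponent * L) / ((G : ℝ) + 1) +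
      Real.exp (-2 * L)) ≤ 2 * CL * N ^ 2 * Real.exp (-(tableExponent + η) * L) := by
    have h1 : Real.exp (-tableExponent * L) / ((G : ℝ) + 1) ≤
        Real.exp (-(tableExponent + η) * L) := by
      rw [div_le_iff₀ (by positivity)]
      refine le_trans (le_of_eq ?_) (mul_le_mul_of_nonneg_left hG1 (Real.exp_nonneg _))
      rw [← Real.exp_add]
      ring_nf
    have h2 : Real.exp (-2 * L) ≤ Real.exp (-(tableExponent + η) * L) := by
      refine Real.exp_le_exp.2 ?_
      have := mul_le_mul_of_nonneg_right (show tableExponent + η ≤ 2 by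
        linarith [tableExponent_lt]) hL
      linarith
    have := mul_le_mul_of_nonneg_left (add_le_add h1 h2) (show 0 ≤ CL * N ^ 2 by positivity)
    linarith
  have h6 : 2 * CL * N ^ 2 * Real.exp (-(tableExponent + η) * L) ≤ B / 4 := by
    have h := (mul_le_mul_of_nonneg_left hbig (by positivity)).trans
      (hdec (2 * CL) η (by positivity) (by linarith [sq_nonneg η]))
    rw [← mul_le_mul_iff_of_pos_right (show 0 < 2 * (R : ℝ) * CE + 8 * CL + 8 by positivity)]
    refine h.trans ?_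
    have := mul_nonneg hB0 (show 0 ≤ (R : ℝ) * CE by positivity)
    linarith
  have h7 : B / 4 ≤ 2 * Real.exp (η * L) * (coprimeEvenPairs N R η).card := by
    have h8 := mul_le_mul_of_nonneg_right hG2
      (Nat.cast_nonneg (α := ℝ) (coprimeEvenPairs N R η).card)
    have h9 := hlow G
    linarith
  have h10 : (8 : ℝ) ≤ Real.exp (η ^ 2 / 32 * L) := by
    linarith [show (0 : ℝ) ≤ 2 * R * CE + 8 * CL by positivity]
  rw [← mul_le_mul_iff_of_pos_left (show 0 < 2 * Real.exp (η * L) by positivity)]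
  refine le_trans ?_ h7
  rw [le_div_iff₀ (by norm_num : (0 : ℝ) < 4), hB]
  refine le_trans (le_of_eq ?_) (le_of_mul_le_mul_left (a := (8 : ℝ)) (b :=
    (N : ℝ) ^ 2 * Real.exp (-(tableExponent + η) * L) * 8) (mul_le_mul_of_nonneg_left ?_
      (by norm_num)) (by norm_num))
  · rw [show -(tableExponent + 2 * η) * L = -(tableExponent + η) * L + -(η * L) by ring,
      Real.exp_add, Real.exp_neg]
    field_simp
    ring
  · refine (mul_le_mul_of_nonneg_left h10 (by positivity)).trans ?_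
    rw [mul_assoc, ← Real.exp_add]
    refine mul_le_mul_of_nonneg_left (Real.exp_le_exp.2 ?_) (sq_nonneg _)
    have := mul_le_mul_of_nonneg_right (show η ^ 2 / 16 ≤ η by linarith) hL
    linarith

end FA.MultTableExponent

end
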