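import Fermat.Agent.MultTableExponent.Good
import Mathlib.NumberTheory.Harmonic.Bounds

/-!
# The multiplicative energy of the evenly spread coprime pairs

A solution of `a₁ b₁ = a₂ b₂` is `(g s, h t), (g t, h s)` with `g, h, s, t` pairwise coprime; by
symmetry `max (s, t) ≤ √N`. If that maximum is near `2 ^ j` and `2 ^ j` near `exp ((log N) ^ τ)`, a
tilt by `c / 2`, halved below this scale, leaves `N² / (log N) ^ (δ + τ - o (1))` of them.
-/

set_option autoImplicit false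

noncomputable section

namespace FA.MultTableExponent

open Finset Filter
open FA.ErdosKac (loglog tendsto_loglog)
open scoped Topology

/-- The conditions on `g, h, s, t`. -/
def IsQuad (N R : ℕ) (η : ℝ) (q : (ℕ × ℕ) × ℕ × ℕ) : Prop :=
  q.1.1 * q.2.1 ≤ N ∧ q.1.1 * q.2.2 ≤ N ∧ q.1.2 * q.2.1 ≤ N ∧ q.1.2 * q.2.2 ≤ N ∧
    ((q.1.1.primeFactors.card + q.1.2.primeFactors.card + q.2.1.primeFactors.card +
      q.2.2.primeFactors.card : ℕ) : ℝ) ≤ critRate * loglog N ∧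
    ∀ r ∈ Icc 1 R, ((omegaBelow (scaleCut R r N) q.1.1 + omegaBelow (scaleCut R r N) q.1.2 +
      omegaBelow (scaleCut R r N) q.2.1 + omegaBelow (scaleCut R r N) q.2.2 : ℕ) : ℝ) ≤
        (critRate * ((r : ℝ) / R) + η) * loglog N

/-- The admissible quadruples. -/
def quads (N R : ℕ) (η : ℝ) : Finset ((ℕ × ℕ) × ℕ × ℕ) :=
  open Classical in ((Icc 1 N ×ˢ Icc 1 N) ×ˢ (Icc 1 N ×ˢ Icc 1 N)).filter (IsQuad N R η)

theorem mem_quads {N R : ℕ} {η : ℝ} {q : (ℕ × ℕ) × ℕ × ℕ} : q ∈ quads N R η ↔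
    q ∈ (Icc 1 N ×ˢ Icc 1 N) ×ˢ (Icc 1 N ×ˢ Icc 1 N) ∧ IsQuad N R η q := by
  rw [quads]
  exact @Finset.mem_filter _ _ (_) _ _

/-- The solutions of `a₁ b₁ = a₂ b₂` in the coprime evenly spread pairs. -/
def collisions (N R : ℕ) (η : ℝ) : Finset ((ℕ × ℕ) × ℕ × ℕ) :=
  (coprimeEvenPairs N R η ×ˢ coprimeEvenPairs N R η).filter fun q =>
    q.1.1 * q.1.2 = q.2.1 * q.2.2

/-- `(a₁, b₁), (a₂, b₂) ↦ (g, h), (s, t)`. -/
def quadOf (q : (ℕ × ℕ) × ℕ × ℕ) : (ℕ × ℕ) × ℕ × ℕ :=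
  ((Nat.gcd q.1.1 q.2.1, q.1.2 / (q.2.1 / Nat.gcd q.1.1 q.2.1)),
    (q.1.1 / Nat.gcd q.1.1 q.2.1, q.2.1 / Nat.gcd q.1.1 q.2.1))

theorem collisions_spec {N R : ℕ} {η : ℝ} {q : (ℕ × ℕ) × ℕ × ℕ} (hq : q ∈ collisions N R η) :
    ∃ g h s t : ℕ, 1 ≤ g ∧ 1 ≤ h ∧ 1 ≤ s ∧ 1 ≤ t ∧ q = ((g * s, h * t), (g * t, h * s)) ∧
      quadOf q = ((g, h), (s, t)) ∧ g.Coprime s ∧ h.Coprime t := by
  obtain ⟨⟨a₁, b₁⟩, a₂, b₂⟩ := q
  rw [collisions, mem_filter, mem_product] at hq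
  obtain ⟨⟨h1, h2⟩, heq⟩ := hq
  rw [coprimeEvenPairs, mem_filter] at h1 h2
  obtain ⟨ha₁, hb₁, -⟩ := mem_lowPairs.1 (evenPairs_subset N R η h1.1)
  obtain ⟨ha₂, hb₂, -⟩ := mem_lowPairs.1 (evenPairs_subset N R η h2.1)
  simp only at heq h1 h2 ha₁ hb₁ ha₂ hb₂
  obtain ⟨g, hg⟩ : ∃ g, g = Nat.gcd a₁ a₂ := ⟨_, rfl⟩
  have hg0 : 0 < g := hg ▸ Nat.gcd_pos_of_pos_left _ ha₁.1
  obtain ⟨s, hs⟩ := (hg ▸ Nat.gcd_dvd_left a₁ a₂ : g ∣ a₁)
  obtain ⟨t, ht⟩ := (hg ▸ Nat.gcd_dvd_right a₁ a₂ : g ∣ a₂)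
  have hst : s.Coprime t := by
    have h := Nat.coprime_div_gcd_div_gcd (m := a₁) (n := a₂) (hg ▸ hg0)
    rwa [← hg, hs, ht, Nat.mul_div_cancel_left _ hg0, Nat.mul_div_cancel_left _ hg0] at h
  have ht0 : 0 < t := Nat.pos_of_ne_zero fun h => by rw [h, mul_zero] at ht; omega
  have hs0 : 0 < s := Nat.pos_of_ne_zero fun h => by rw [h, mul_zero] at hs; omega
  rw [hs, ht, mul_assoc, mul_assoc] at heq
  have heq' : s * b₁ = t * b₂ := Nat.eq_of_mul_eq_mul_left hg0 heq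
  obtain ⟨h, hh⟩ : t ∣ b₁ := hst.symm.dvd_of_dvd_mul_left ⟨b₂, heq'⟩
  have hb2 : b₂ = h * s := by
    rw [hh, mul_left_comm] at heq'
    rw [mul_comm h s]
    exact (Nat.eq_of_mul_eq_mul_left ht0 heq').symm
  have hh0 : 0 < h := Nat.pos_of_ne_zero fun e => by rw [e, mul_zero] at hh; omega
  refine ⟨g, h, s, t, hg0, hh0, hs0, ht0, ?_, ?_, ?_, ?_⟩
  · rw [hs, ht, hb2, hh, mul_comm t h]
  · simp only [quadOf]
    rw [← hg, hs, ht, Nat.mul_div_cancel_left _ hg0, Nat.mul_div_cancel_left _ hg0, hh,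
      Nat.mul_div_cancel_left _ ht0]
  · have h := h2.2
    rw [ht, hb2] at h
    exact (h.coprime_mul_right).coprime_mul_left_right
  · have h := h2.2
    rw [ht, hb2] at h
    exact ((h.coprime_mul_left).coprime_mul_right_right).symm

theorem card_collisions_le (N R : ℕ) (η : ℝ) :
    (collisions N R η).card ≤ (quads N R η).card := by
  refine card_le_card_of_injOn quadOf (fun q hq => ?_) fun p hp q hq hpq => ?_
  · obtain ⟨g, h, s, t, hg, hh, hs, ht, rfl, hQ, hgs, hht⟩ := collisions_spec hq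
    rw [hQ, mem_coe, mem_quads]
    rw [mem_coe, collisions, mem_filter, mem_product, coprimeEvenPairs, mem_filter,
      mem_filter, mem_evenPairs, mem_evenPairs, mem_lowPairs, mem_lowPairs] at hq
    obtain ⟨⟨⟨⟨⟨⟨-, h1⟩, ⟨-, h2⟩, hω⟩, hbelow⟩, -⟩, ⟨⟨⟨-, h3⟩, ⟨-, h4⟩, -⟩, -⟩, -⟩, -⟩ := hq
    simp only at h1 h2 h3 h4 hω hbelow
    refine ⟨?_, h1, h3, h4, h2, ?_, fun r hr => ?_⟩
    · simp only [mem_product, mem_Icc]
      exact ⟨⟨⟨hg, (Nat.le_mul_of_pos_right g hs).trans h1⟩,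
          ⟨hh, (Nat.le_mul_of_pos_right h ht).trans h2⟩⟩,
        ⟨hs, (Nat.le_mul_of_pos_left s hg).trans h1⟩, ht, (Nat.le_mul_of_pos_left t hg).trans h3⟩
    · rw [card_primeFactors_mul (by omega) (by omega) hgs,
        card_primeFactors_mul (by omega) (by omega) hht] at hω
      push_cast at hω ⊢
      linarith
    · have h := hbelow r hr
      rw [omegaBelow_mul (by omega) (by omega) hgs, omegaBelow_mul (by omega) (by omega) hht] at h
      push_cast at h ⊢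
      linarith
  · obtain ⟨g, h, s, t, -, -, -, -, e₁, hQ₁, -⟩ := collisions_spec hp
    obtain ⟨g', h', s', t', -, -, -, -, e₂, hQ₂, -⟩ := collisions_spec hq
    rw [hQ₁, hQ₂] at hpq
    simp only [Prod.mk.injEq] at hpq
    obtain ⟨⟨rfl, rfl⟩, rfl, rfl⟩ := hpq
    rw [e₁, e₂]

/-- `exp ((log N) ^ 1) = N`. -/
theorem scaleCut_self {R N : ℕ} (hR : 1 ≤ R) (hN : 2 ≤ N) : scaleCut R R N = N := by
  have hl : 0 < Real.log N := Real.log_pos (Nat.one_lt_cast.2 (by omega))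
  rw [scaleCut, div_self (Nat.cast_ne_zero.2 (by omega)), one_mul, loglog, Real.exp_log hl,
    Real.exp_log (Nat.cast_pos.2 (by omega)), Nat.floor_natCast]

theorem le_loglog_scaleCut {R r N : ℕ} (hL : 0 ≤ loglog N) :
    (r : ℝ) / R * loglog N - 2 ≤ loglog (scaleCut R r N) := by
  obtain ⟨E, hE⟩ : ∃ E, E = Real.exp ((r : ℝ) / R * loglog N) := ⟨_, rfl⟩
  have hE1 : 1 ≤ E := hE ▸ Real.one_le_exp (by positivity)
  have hw : (2 : ℝ) ≤ scaleCut R r N := Nat.ofNat_le_cast.2 (two_le_scaleCut hL)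
  have h1 : E - Real.log 2 ≤ Real.log (scaleCut R r N) := by
    have h := Real.log_le_log (Real.exp_pos E) (show Real.exp E ≤ 2 * (scaleCut R r N : ℝ) by
      have h2 := (Nat.lt_floor_add_one (Real.exp E)).le
      rw [scaleCut, ← hE] at hw ⊢
      linarith)
    rw [Real.log_exp, Real.log_mul two_ne_zero (by linarith)] at h
    linarith
  have h2 := Real.log_le_log (show 0 < E / 4 by positivity)
    (show E / 4 ≤ Real.log (scaleCut R r N) by linarith [Real.log_two_lt_d9])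
  rw [Real.log_div (by linarith) (by norm_num), hE, Real.log_exp,
    show (4 : ℝ) = 2 ^ 2 by norm_num, Real.log_pow] at h2
  push_cast at h2
  show _ ≤ Real.log (Real.log _)
  linarith [Real.log_two_lt_d9]

/-- **The quadruples with `max (s, t)` in `[2 ^ j, 2 ^ (j + 1))`.** -/
theorem exists_card_dyadic_le : ∃ C : ℝ, 0 < C ∧ ∀ᶠ N : ℕ in atTop, ∀ R : ℕ, 1 ≤ R →
    ∀ η : ℝ, 0 ≤ η → ∀ j : ℕ,
    (((quads N R η).filter fun q =>
      max q.2.1 q.2.2 ≤ Nat.sqrt N ∧ Nat.log 2 (max q.2.1 q.2.2) = j).card : ℝ) ≤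
      C * N ^ 2 * Real.exp ((-tableExponent + η + 2 / R) * loglog N) / ((j : ℝ) + 1) := by
  obtain ⟨CT, hCT, hT⟩ := exists_sum_tilt_le
  obtain ⟨hc, hc'⟩ := critRate_bounds
  obtain ⟨y, hy⟩ : ∃ y, y = critRate / 2 := ⟨_, rfl⟩
  have hy0 : 0 < y := by linarith
  refine ⟨8 * CT ^ 4 * Real.exp 6, by positivity, ?_⟩
  filter_upwards [eventually_sqrt_scale, tendsto_loglog.eventually_ge_atTop 0,
    eventually_ge_atTop 4] with N ⟨hs2, _, hscale⟩ hL hN R hR η hη j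
  obtain ⟨S, hS⟩ : ∃ S, S = (quads N R η).filter fun q =>
      max q.2.1 q.2.2 ≤ Nat.sqrt N ∧ Nat.log 2 (max q.2.1 q.2.2) = j := ⟨_, rfl⟩
  rw [← hS]
  rcases S.eq_empty_or_nonempty with hemp | ⟨q₀, hq₀⟩
  · rw [hemp, card_empty, Nat.cast_zero]
    positivity
  obtain ⟨L, hLdef⟩ : ∃ L, L = loglog N := ⟨_, rfl⟩
  rw [← hLdef] at hL hscale ⊢
  have hmem : ∀ q ∈ S, q ∈ quads N R η ∧ 2 ^ j ≤ max q.2.1 q.2.2 ∧
      max q.2.1 q.2.2 ≤ 2 ^ (j + 1) ∧ max q.2.1 q.2.2 ≤ Nat.sqrt N := fun q hq => by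
    rw [hS, mem_filter] at hq
    obtain ⟨hq, hsq, hj⟩ := hq
    have h1 : 1 ≤ max q.2.1 q.2.2 := by
      have h := (mem_quads.1 hq).1
      simp only [mem_product, mem_Icc] at h
      exact h.2.1.1.trans (le_max_left _ _)
    refine ⟨hq, ?_, ?_, hsq⟩
    · rw [← hj]
      exact Nat.pow_log_le_self 2 (by omega)
    · rw [← hj]
      exact (Nat.lt_pow_succ_log_self one_lt_two _).le
  have hjN : 2 ^ j ≤ Nat.sqrt N := (hmem q₀ hq₀).2.1.trans (hmem q₀ hq₀).2.2.2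
  obtain ⟨W, hW⟩ : ∃ W, W = 2 ^ (j + 1) := ⟨_, rfl⟩
  obtain ⟨X, hX⟩ : ∃ X, X = N / 2 ^ j := ⟨_, rfl⟩
  have hW2 : 2 ≤ W := hW ▸ Nat.le_self_pow (by omega) 2
  have hXs : Nat.sqrt N ≤ X := hX ▸ (Nat.le_div_iff_mul_le (Nat.two_pow_pos j)).2
    ((Nat.mul_le_mul_left _ hjN).trans (Nat.sqrt_le N))
  have hX2 : 2 ≤ X := hs2.trans hXs
  have hWN : W ≤ N := by
    rw [hW, pow_succ]
    refine le_trans ?_ (Nat.sqrt_le N)
    exact Nat.mul_le_mul hjN hs2
  have hWX : W * X ≤ 2 * N := by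
    rw [hW, hX, pow_succ, mul_comm (2 ^ j) 2, mul_assoc]
    exact Nat.mul_le_mul_left 2 (Nat.mul_div_le N _)
  -- the scale of `W`
  classical
  have hex : ∃ r, 1 ≤ r ∧ W ≤ scaleCut R r N :=
    ⟨R, hR, hWN.trans_eq (scaleCut_self hR (show 2 ≤ N by omega)).symm⟩
  obtain ⟨r, hr⟩ : ∃ r, r = Nat.find hex := ⟨_, rfl⟩
  have hr1 : 1 ≤ r ∧ W ≤ scaleCut R r N := hr ▸ Nat.find_spec hex
  have hrR : r ≤ R := hr ▸ Nat.find_le
    ⟨hR, hWN.trans_eq (scaleCut_self hR (show 2 ≤ N by omega)).symm⟩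
  obtain ⟨τ, hτ⟩ : ∃ τ, τ = (r : ℝ) / R := ⟨_, rfl⟩
  have hR0 : (0 : ℝ) < R := Nat.cast_pos.2 hR
  have hτ1 : τ ≤ 1 := by rw [hτ, div_le_one hR0]; exact Nat.cast_le.2 hrR
  have hτ0 : 0 ≤ τ := hτ ▸ by positivity
  have hWup : loglog W ≤ τ * L := hτ ▸ hLdef ▸ loglog_le_of_le_scaleCut hW2 hr1.2
  have hWlow : (τ - 1 / R) * L - 1 ≤ loglog W := by
    rcases hr1.1.eq_or_lt with h1 | h1
    · have h2 : -1 ≤ loglog W := FA.OmegaPhi.neg_one_le_loglog hW2
      rw [hτ, ← h1, Nat.cast_one, sub_self, zero_mul]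
      linarith
    · have hlt : ¬(1 ≤ r - 1 ∧ W ≤ scaleCut R (r - 1) N) := Nat.find_min hex (by omega)
      rw [not_and, not_le] at hlt
      have h2 : Real.exp (Real.exp (((r - 1 : ℕ) : ℝ) / R * L)) ≤ W := by
        have h3 : ((scaleCut R (r - 1) N : ℕ) : ℝ) + 1 ≤ W := by
          exact_mod_cast hlt (by omega)
        refine le_trans ?_ h3
        rw [scaleCut, hLdef]
        exact (Nat.lt_floor_add_one _).le
      have h4 := Real.log_le_log (Real.exp_pos _) h2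
      rw [Real.log_exp] at h4
      have h5 := Real.log_le_log (Real.exp_pos _) h4
      rw [Real.log_exp, Nat.cast_sub hr1.1, Nat.cast_one, sub_div, ← hτ] at h5
      rw [loglog]
      linarith
  obtain ⟨w, hw⟩ : ∃ w, w = scaleCut R r N := ⟨_, rfl⟩
  have hw2 : 2 ≤ w := hw ▸ two_le_scaleCut (hLdef ▸ hL)
  have hmin : τ * L - 2 ≤ loglog (min w X) := by
    rcases le_total w X with h | h
    · rw [min_eq_left h, hw, hτ, hLdef]
      exact le_loglog_scaleCut (hLdef ▸ hL)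
    · rw [min_eq_right h]
      have := mul_le_of_le_one_left hL hτ1
      linarith [hscale X hXs]
  -- the tilt
  obtain ⟨f, hf⟩ : ∃ f : ℕ → ℝ, f = fun n => tilt y (1 / 2) w n := ⟨_, rfl⟩
  have hf0 : ∀ n, 0 ≤ f n := fun n => hf ▸ tilt_nonneg hy0.le (by norm_num) w n
  have hFW : ∑ n ∈ Icc 1 W, f n ≤ CT * W * Real.exp ((y / 2 - 1) * loglog W) := by
    rw [hf]
    refine (hT y (1 / 2) hy0.le (by norm_num) (by linarith) (by linarith) W w hW2 hw2).trans_eq ?_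
    rw [min_eq_right (hw ▸ hr1.2 : W ≤ w)]
    ring_nf
  have hFX : ∑ n ∈ Icc 1 X, f n ≤
      CT * X * Real.exp ((y - 1) * (L - 2) - y / 2 * (τ * L - 2)) := by
    rw [hf]
    refine (hT y (1 / 2) hy0.le (by norm_num) (by linarith) (by linarith) X w hX2 hw2).trans ?_
    refine mul_le_mul_of_nonneg_left (Real.exp_le_exp.2 ?_) (by positivity)
    have h1 := mul_le_mul_of_nonpos_left (hscale X hXs) (show y - 1 ≤ 0 by linarith)
    have h2 := mul_le_mul_of_nonneg_left hmin (show 0 ≤ y / 2 by linarith)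
    linarith
  have hm : ∀ q ∈ S, Real.exp (critRate * L * Real.log y +
      (critRate * τ + η) * L * Real.log (1 / 2)) ≤ f q.1.1 * f q.1.2 * (f q.2.1 * f q.2.2) := by
    intro q hq
    obtain ⟨hbox, -, -, -, -, hω, hbelow⟩ := mem_quads.1 (hmem q hq).1
    simp only [mem_product, mem_Icc] at hbox
    rw [← hLdef] at hω
    have hb := hbelow r (mem_Icc.2 ⟨hr1.1, hrR⟩)
    rw [← hw, ← hτ, ← hLdef] at hb
    rw [hf]
    simp only [tilt]
    rw [if_neg (by omega), if_neg (by omega), if_neg (by omega), if_neg (by omega)]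
    refine le_trans ?_ (le_of_eq (show y ^ (q.1.1.primeFactors.card + q.1.2.primeFactors.card +
      q.2.1.primeFactors.card + q.2.2.primeFactors.card) * (1 / 2 : ℝ) ^ (omegaBelow w q.1.1 +
        omegaBelow w q.1.2 + omegaBelow w q.2.1 + omegaBelow w q.2.2) = _ by
      rw [pow_add, pow_add, pow_add, pow_add, pow_add, pow_add]; ring))
    rw [← Real.exp_log (pow_pos hy0 _), ← Real.exp_log
      (pow_pos (show (0 : ℝ) < 1 / 2 by norm_num) _),
      ← Real.exp_add, Real.log_pow, Real.log_pow]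
    exact Real.exp_le_exp.2 (add_le_add
      (mul_le_mul_of_nonpos_right hω (Real.log_nonpos hy0.le (by linarith)))
      (mul_le_mul_of_nonpos_right hb (Real.log_nonpos (by norm_num) (by norm_num))))
  have hsubS : S ⊆ (Icc 1 X ×ˢ Icc 1 X) ×ˢ (Icc 1 W ×ˢ Icc 1 W) := fun q hq => by
    obtain ⟨hq, hjm, hjW, -⟩ := hmem q hq
    obtain ⟨hbox, h1, h2, h3, h4, -⟩ := mem_quads.1 hq
    simp only [mem_product, mem_Icc] at hbox ⊢
    have hb : ∀ x, x * q.2.1 ≤ N → x * q.2.2 ≤ N → x ≤ X := fun x e1 e2 => by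
      rw [hX, Nat.le_div_iff_mul_le (Nat.two_pow_pos j)]
      refine (Nat.mul_le_mul_left x hjm).trans ?_
      rcases max_choice q.2.1 q.2.2 with e | e <;> rw [e] <;> assumption
    exact ⟨⟨⟨hbox.1.1.1, hb _ h1 h2⟩, hbox.1.2.1, hb _ h3 h4⟩,
      ⟨hbox.2.1.1, hW ▸ (le_max_left _ _).trans hjW⟩, hbox.2.2.1,
      hW ▸ (le_max_right _ _).trans hjW⟩
  have hcount : (S.card : ℝ) * Real.exp (critRate * L * Real.log y +
      (critRate * τ + η) * L * Real.log (1 / 2)) ≤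
      (∑ n ∈ Icc 1 X, f n) ^ 2 * (∑ n ∈ Icc 1 W, f n) ^ 2 := by
    rw [← nsmul_eq_mul, sq, sq, sum_mul_sum, sum_mul_sum, ← sum_product', ← sum_product',
      sum_mul_sum, ← sum_product']
    exact (card_nsmul_le_sum _ _ _ hm).trans (sum_le_sum_of_subset_of_nonneg hsubS
      fun q _ _ => mul_nonneg (mul_nonneg (hf0 _) (hf0 _)) (mul_nonneg (hf0 _) (hf0 _)))
  have hexpW : ((j : ℝ) + 1) * Real.exp (-(τ * L)) ≤ 2 := by
    have h1 : Real.log W ≤ Real.exp (τ * L) := by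
      rw [← Real.exp_log (Real.log_pos (Nat.one_lt_cast.2 (by omega : 1 < W)))]
      exact Real.exp_le_exp.2 hWup
    rw [hW, Nat.cast_pow, Nat.cast_ofNat, Real.log_pow] at h1
    push_cast at h1
    rw [Real.exp_neg, ← div_eq_mul_inv, div_le_iff₀ (Real.exp_pos _)]
    have h2 := mul_le_mul_of_nonneg_left Real.log_two_gt_d9.le (show (0 : ℝ) ≤ (j : ℝ) + 1 by
      positivity)
    linarith [Real.exp_nonneg (τ * L)]
  rw [le_div_iff₀ (by positivity)]
  rw [← le_div_iff₀ (Real.exp_pos _), div_eq_mul_inv, ← Real.exp_neg] at hcount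
  have hWX' : (W : ℝ) * X ≤ 2 * N := by exact_mod_cast hWX
  refine (mul_le_mul_of_nonneg_right (hcount.trans (mul_le_mul_of_nonneg_right (mul_le_mul
    (pow_le_pow_left₀ (sum_nonneg fun n _ => hf0 n) hFX 2)
    (pow_le_pow_left₀ (sum_nonneg fun n _ => hf0 n) hFW 2) (by positivity) (by positivity))
    (Real.exp_nonneg _))) (show (0 : ℝ) ≤ (j : ℝ) + 1 by positivity)).trans ?_
  rw [show (CT * X * Real.exp ((y - 1) * (L - 2) - y / 2 * (τ * L - 2))) ^ 2 *
      (CT * W * Real.exp ((y / 2 - 1) * loglog W)) ^ 2 *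
      Real.exp (-(critRate * L * Real.log y + (critRate * τ + η) * L * Real.log (1 / 2))) *
        ((j : ℝ) + 1) =
      CT ^ 4 * ((W : ℝ) * X) ^ 2 * ((Real.exp ((y - 1) * (L - 2) - y / 2 * (τ * L - 2)) ^ 2 *
        Real.exp ((y / 2 - 1) * loglog W) ^ 2 *
        Real.exp (-(critRate * L * Real.log y + (critRate * τ + η) * L * Real.log (1 / 2)))) *
        ((j : ℝ) + 1)) by ring, ← Real.exp_nat_mul, ← Real.exp_nat_mul, ← Real.exp_add,
    ← Real.exp_add]
  have hkey : (2 : ℕ) * ((y - 1) * (L - 2) - y / 2 * (τ * L - 2)) +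
      (2 : ℕ) * ((y / 2 - 1) * loglog W) +
      -(critRate * L * Real.log y + (critRate * τ + η) * L * Real.log (1 / 2)) ≤
      6 + (-tableExponent + η + 2 / R) * L + -(τ * L) := by
    have h1 := mul_le_mul_of_nonpos_left hWlow (show y - 2 ≤ 0 by linarith)
    have h2 := mul_le_mul_of_nonneg_left Real.log_two_lt_d9.le (mul_nonneg hη hL)
    have h3 : (-(critRate * Real.log (critRate / 2)) + (critRate - 2)) * L =
        -tableExponent * L := by rw [exponent_half]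
    have h4 : critRate * Real.log 2 * (τ * L) = τ * L := by rw [critRate_mul_log_two, one_mul]
    have h5 : 0 ≤ y * (1 / (R : ℝ) * L) := by positivity
    have h6 : 2 / (R : ℝ) * L = 2 * (1 / (R : ℝ) * L) := by ring
    have h7 := mul_nonneg hη hL
    rw [one_div (2 : ℝ), Real.log_inv, hy]
    push_cast
    rw [hy] at h1 h5
    linarith
  refine (mul_le_mul (mul_le_mul_of_nonneg_left (pow_le_pow_left₀ (by positivity) hWX' 2)
    (by positivity)) (mul_le_mul_of_nonneg_right (Real.exp_le_exp.2 hkey) (by positivity))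
    (by positivity) (by positivity)).trans ?_
  rw [Real.exp_add, Real.exp_add]
  refine le_trans (le_of_eq ?_) ((mul_le_mul_of_nonneg_left hexpW (show 0 ≤ CT ^ 4 *
    (2 * (N : ℝ)) ^ 2 * (Real.exp 6 * Real.exp ((-tableExponent + η + 2 / R) * L)) by
      positivity)).trans (le_of_eq ?_))
  · ring
  · ring

/-- **The energy.** -/
theorem exists_card_collisions_le {η : ℝ} (hη : 0 < η) : ∃ C : ℝ, 0 < C ∧ ∀ᶠ N : ℕ in atTop,
    ∀ R : ℕ, 1 ≤ R → ((collisions N R η).card : ℝ) ≤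
      C * N ^ 2 * Real.exp ((-tableExponent + 2 * η + 2 / R) * loglog N) := by
  obtain ⟨C, hC, hdy⟩ := exists_card_dyadic_le
  refine ⟨2 * C, by positivity, ?_⟩
  filter_upwards [hdy, tendsto_loglog.eventually_ge_atTop (max 4 (8 / η ^ 2)),
    eventually_ge_atTop 16] with N hdy hL hN R hR
  obtain ⟨L, hLdef⟩ : ∃ L, L = loglog N := ⟨_, rfl⟩
  rw [← hLdef] at hL ⊢
  obtain ⟨Q, hQ⟩ : ∃ Q, Q = (quads N R η).filter fun q => max q.2.1 q.2.2 ≤ Nat.sqrt N :=
    ⟨_, rfl⟩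
  have hswap : (quads N R η).card ≤ 2 * Q.card := by
    refine (card_le_card (t := Q ∪ Q.image Prod.swap) fun q hq => ?_).trans
      ((card_union_le _ _).trans ?_)
    · obtain ⟨hbox, h1, h2, h3, h4, hω, hbelow⟩ := mem_quads.1 hq
      rw [mem_union, hQ, mem_filter]
      by_cases hm : max q.2.1 q.2.2 ≤ Nat.sqrt N
      · exact Or.inl ⟨hq, hm⟩
      refine Or.inr
        (mem_image.2 ⟨q.swap, mem_filter.2 ⟨mem_quads.2 ⟨?_, ?_⟩, ?_⟩, Prod.swap_swap q⟩)
      · rw [mem_product] at hbox ⊢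
        exact ⟨hbox.2, hbox.1⟩
      · refine ⟨mul_comm q.1.1 q.2.1 ▸ h1, mul_comm q.1.2 q.2.1 ▸ h3, mul_comm q.1.1 q.2.2 ▸ h2,
          mul_comm q.1.2 q.2.2 ▸ h4, ?_, fun r hr => ?_⟩
        · simp only [Prod.fst_swap, Prod.snd_swap]
          push_cast at hω ⊢
          linarith
        · have h := hbelow r hr
          simp only [Prod.fst_swap, Prod.snd_swap]
          push_cast at h ⊢
          linarith
      · have hb : max q.1.1 q.1.2 * max q.2.1 q.2.2 ≤ N := by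
          rcases max_choice q.1.1 q.1.2 with e | e <;>
            rcases max_choice q.2.1 q.2.2 with e' | e' <;> rw [e, e'] <;> assumption
        simp only [Prod.snd_swap]
        by_contra hc
        have := Nat.mul_le_mul (Nat.lt_iff_add_one_le.1 (not_le.1 hc))
          (Nat.lt_iff_add_one_le.1 (not_le.1 hm))
        have := Nat.lt_succ_sqrt N
        rw [Nat.succ_eq_add_one] at this
        omega
    · have := card_image_le (s := Q) (f := Prod.swap)
      omega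
  obtain ⟨J, hJ⟩ : ∃ J, J = Nat.log 2 N := ⟨_, rfl⟩
  have hQle : (Q.card : ℝ) ≤
      C * N ^ 2 * Real.exp ((-tableExponent + η + 2 / R) * L) * (1 + Real.log (J + 1 : ℕ)) := by
    rw [card_eq_sum_card_fiberwise (f := fun q : (ℕ × ℕ) × ℕ × ℕ => Nat.log 2 (max q.2.1 q.2.2))
      (t := range (J + 1)) fun q hq => ?_, Nat.cast_sum]
    · refine (sum_le_sum fun j _ => ?_).trans (le_trans (le_of_eq (mul_sum _
        (fun j : ℕ => ((j : ℝ) + 1)⁻¹) _).symm) (mul_le_mul_of_nonneg_left ?_ (by positivity)))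
      · rw [← div_eq_mul_inv, hQ, filter_filter, hLdef]
        exact hdy R hR η hη.le j
      · refine le_trans (le_of_eq ?_) (harmonic_le_one_add_log (J + 1))
        simp [harmonic]
    · have h : q ∈ quads N R η ∧ max q.2.1 q.2.2 ≤ Nat.sqrt N := by
        rw [mem_coe, hQ, mem_filter] at hq; exact hq
      rw [mem_coe, mem_range, hJ, Nat.lt_succ_iff]
      exact Nat.log_mono_right (h.2.trans (Nat.sqrt_le_self N))
  have hl : 1 + Real.log (J + 1 : ℕ) ≤ Real.exp (η * L) := by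
    have hlN : 1 ≤ Real.log N := by
      have := Real.log_le_log (show (0 : ℝ) < 16 by norm_num) (Nat.ofNat_le_cast.2 hN)
      rw [show (16 : ℝ) = 2 ^ 4 by norm_num, Real.log_pow] at this
      push_cast at this
      linarith [Real.log_two_gt_d9]
    have h1 : ((J + 1 : ℕ) : ℝ) ≤ 3 * Real.log N := by
      have h := Real.log_le_log (by positivity)
        (Nat.cast_le.2 (Nat.pow_log_le_self 2 (show N ≠ 0 by omega)) :
          ((2 ^ Nat.log 2 N : ℕ) : ℝ) ≤ N)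
      rw [← hJ, Nat.cast_pow, Nat.cast_ofNat, Real.log_pow] at h
      have h2 := mul_le_mul_of_nonneg_left Real.log_two_gt_d9.le (Nat.cast_nonneg (α := ℝ) J)
      push_cast
      linarith
    have h2 := Real.log_le_log (by positivity) h1
    rw [Real.log_mul (by norm_num) (by linarith), show Real.log (Real.log (N : ℝ)) = L from
      hLdef.symm] at h2
    have h3 : Real.log 3 ≤ 2 := (Real.log_le_sub_one_of_pos (by norm_num)).trans (by norm_num)
    refine le_trans ?_ (Real.quadratic_le_exp_of_nonneg (mul_nonneg hη.le (by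
      linarith [le_of_max_le_left hL])))
    have h4 : 8 ≤ η ^ 2 * L := by
      have := le_of_max_le_right hL
      rw [div_le_iff₀ (by positivity)] at this
      linarith
    have h5 := mul_le_mul_of_nonneg_right h4 (show 0 ≤ L by linarith [le_of_max_le_left hL])
    have h6 := mul_nonneg hη.le (show 0 ≤ L by linarith [le_of_max_le_left hL])
    linarith [le_of_max_le_left hL]
  refine (Nat.cast_le.2 ((card_collisions_le N R η).trans hswap)).trans ?_
  rw [Nat.cast_mul, Nat.cast_ofNat, show (-tableExponent + 2 * η + 2 / R) * L =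
    (-tableExponent + η + 2 / R) * L + η * L by ring, Real.exp_add]
  have := mul_le_mul_of_nonneg_left hl
    (show 0 ≤ C * N ^ 2 * Real.exp ((-tableExponent + η + 2 / R) * L) by positivity)
  linarith

end FA.MultTableExponent

end
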