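import Fermat.Agent.MultTableExponent.Energy

/-!
# The exponent of the multiplication table

Erdős (1960): the `N × N` multiplication table has `N² / (log N) ^ (δ + o (1))` distinct entries,
`δ = 1 - (1 + log log 2) / log 2`.
-/

set_option autoImplicit false

noncomputable section

namespace FA.MultTableExponent

open Finset Filter
open FA.ErdosKac (loglog tendsto_loglog)
open scoped Topology

/-- The number of distinct products `a b`, `a, b ≤ N`. -/
def tableSize (N : ℕ) : ℕ := ((Icc 1 N ×ˢ Icc 1 N).image fun z => z.1 * z.2).card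

/-- **The upper bound.** -/
theorem exists_tableSize_le : ∃ C : ℝ, 0 < C ∧ ∀ᶠ N : ℕ in atTop,
    (tableSize N : ℝ) ≤ C * N ^ 2 * Real.exp (-tableExponent * loglog N) := by
  obtain ⟨CT, hCT, hT⟩ := exists_sum_pow_le
  obtain ⟨CL, hCL, hlow⟩ := exists_sum_lowPairs_le
  obtain ⟨hc, hc'⟩ := critRate_bounds
  have hc0 : 0 < critRate := by linarith
  refine ⟨CT * Real.exp 1 + 2 * CL, by positivity, ?_⟩
  filter_upwards [hlow, tendsto_loglog.eventually_ge_atTop 0, eventually_ge_atTop 2]
    with N hlow hL hN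
  obtain ⟨L, hLdef⟩ : ∃ L, L = loglog N := ⟨_, rfl⟩
  rw [← hLdef] at hlow hL ⊢
  obtain ⟨A, hA⟩ : ∃ A, A = (Icc 1 (N ^ 2)).filter fun m =>
      critRate * L ≤ (m.primeFactors.card : ℝ) := ⟨_, rfl⟩
  obtain ⟨B, hB⟩ : ∃ B, B = (Icc 1 N ×ˢ Icc 1 N).filter fun z =>
      ((z.1 * z.2).primeFactors.card : ℝ) ≤ critRate * L := ⟨_, rfl⟩
  have hsub : ((Icc 1 N ×ˢ Icc 1 N).image fun z => z.1 * z.2) ⊆
      A ∪ B.image fun z => z.1 * z.2 := fun m hm => by
    obtain ⟨z, hz, rfl⟩ := mem_image.1 hm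
    rw [mem_union]
    rcases le_total (critRate * L) ((z.1 * z.2).primeFactors.card : ℝ) with h | h
    · refine Or.inl (hA ▸ mem_filter.2 ⟨mem_Icc.2 ?_, h⟩)
      simp only [mem_product, mem_Icc] at hz
      rw [sq]
      exact ⟨Nat.mul_pos hz.1.1 hz.2.1, Nat.mul_le_mul hz.1.2 hz.2.2⟩
    · exact Or.inr (mem_image.2 ⟨z, hB ▸ mem_filter.2 ⟨hz, h⟩, rfl⟩)
  have hAle : (A.card : ℝ) ≤ CT * Real.exp 1 * N ^ 2 * Real.exp (-tableExponent * L) := by
    have h1 := hT critRate hc0.le (by linarith) (N ^ 2) (hN.trans (Nat.le_self_pow two_ne_zero N))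
    have h2 : (A.card : ℝ) * Real.exp (critRate * L * Real.log critRate) ≤
        ∑ m ∈ Icc 1 (N ^ 2), critRate ^ m.primeFactors.card := by
      rw [← nsmul_eq_mul]
      refine (card_nsmul_le_sum _ _ _ fun m hm => ?_).trans
        (sum_le_sum_of_subset_of_nonneg (hA ▸ filter_subset _ _) fun m _ _ => by positivity)
      rw [hA, mem_filter] at hm
      rw [← Real.exp_log (pow_pos hc0 _), Real.log_pow]
      exact Real.exp_le_exp.2 (mul_le_mul_of_nonneg_right hm.2 (Real.log_nonneg (by linarith)))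
    have h3 : loglog (N ^ 2) ≤ L + 1 := by
      have hl : 0 < Real.log N := Real.log_pos (Nat.one_lt_cast.2 (by omega))
      rw [hLdef, loglog, loglog, Nat.cast_pow, Real.log_pow, Nat.cast_ofNat,
        Real.log_mul two_ne_zero hl.ne']
      linarith [Real.log_two_lt_d9]
    rw [← le_div_iff₀ (Real.exp_pos _), div_eq_mul_inv, ← Real.exp_neg] at h2
    refine h2.trans ((mul_le_mul_of_nonneg_right (h1.trans (mul_le_mul_of_nonneg_left
      (Real.exp_le_exp.2 (mul_le_mul_of_nonneg_left h3 (by linarith))) (by positivity)))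
      (Real.exp_nonneg _)).trans ?_)
    rw [Nat.cast_pow, mul_assoc, ← Real.exp_add, mul_assoc, mul_assoc, mul_assoc]
    rw [mul_assoc CT (Real.exp 1)]
    refine mul_le_mul_of_nonneg_left ?_ hCT.le
    rw [mul_left_comm (Real.exp 1)]
    refine mul_le_mul_of_nonneg_left ?_ (by positivity)
    rw [← Real.exp_add]
    refine Real.exp_le_exp.2 ?_
    rw [tableExponent_eq]
    linarith
  have hBle : (B.card : ℝ) ≤ 2 * CL * N ^ 2 * Real.exp (-tableExponent * L) := by
    have h1 := card_le_sum_of_gcd (S := B) (T := fun g => lowPairs (N / g) (critRate * L))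
      (hB ▸ filter_subset _ _) fun a b g u v hab hg ha hb huv => by
        rw [hB, mem_filter, mem_product, mem_Icc, mem_Icc] at hab
        obtain ⟨⟨⟨ha1, haN⟩, hb1, hbN⟩, hω⟩ := hab
        simp only at ha1 haN hb1 hbN hω
        have hu1 : 1 ≤ u := Nat.pos_of_ne_zero fun h => by rw [h, mul_zero] at ha; omega
        have hv1 : 1 ≤ v := Nat.pos_of_ne_zero fun h => by rw [h, mul_zero] at hb; omega
        have hab0 : a * b ≠ 0 := Nat.mul_ne_zero (by omega) (by omega)
        refine mem_lowPairs.2 ⟨⟨hu1, ?_⟩, ⟨hv1, ?_⟩, le_trans (Nat.cast_le.2 ?_) hω⟩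
        · rw [Nat.le_div_iff_mul_le hg, mul_comm]
          exact ha ▸ haN
        · rw [Nat.le_div_iff_mul_le hg, mul_comm]
          exact hb ▸ hbN
        · rw [← card_primeFactors_mul (by omega) (by omega) huv]
          exact card_le_card (Nat.primeFactors_mono
            (mul_dvd_mul (ha ▸ dvd_mul_left u g) (hb ▸ dvd_mul_left v g)) hab0)
    refine (Nat.cast_le.2 h1).trans ?_
    rw [Nat.cast_sum]
    refine (hlow 0).trans ?_
    have h2 : Real.exp (-2 * L) ≤ Real.exp (-tableExponent * L) := by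
      refine Real.exp_le_exp.2 ?_
      have := mul_le_mul_of_nonneg_right (show tableExponent ≤ 2 by linarith [tableExponent_lt]) hL
      linarith
    rw [Nat.cast_zero, zero_add, div_one]
    have := mul_le_mul_of_nonneg_left h2 (show 0 ≤ CL * N ^ 2 by positivity)
    linarith
  refine (Nat.cast_le.2 ((card_le_card hsub).trans ((card_union_le _ _).trans
    (Nat.add_le_add le_rfl card_image_le)))).trans ?_
  rw [Nat.cast_add]
  linarith

/-- **Cauchy and Schwarz.** -/
theorem sq_card_le_tableSize_mul (N R : ℕ) (η : ℝ) :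
    (coprimeEvenPairs N R η).card ^ 2 ≤ tableSize N * (collisions N R η).card := by
  obtain ⟨P, hP⟩ : ∃ P, P = coprimeEvenPairs N R η := ⟨_, rfl⟩
  obtain ⟨f, hf⟩ : ∃ f : ℕ × ℕ → ℕ, f = fun z => z.1 * z.2 := ⟨_, rfl⟩
  have hsub : P ⊆ Icc 1 N ×ˢ Icc 1 N :=
    hP ▸ (filter_subset _ _).trans ((evenPairs_subset N R η).trans (filter_subset _ _))
  have h1 : P.card = ∑ m ∈ P.image f, (P.filter fun z => f z = m).card :=
    card_eq_sum_card_image f P
  have h2 : ∑ m ∈ P.image f, (P.filter fun z => f z = m).card ^ 2 =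
      (collisions N R η).card := by
    rw [card_eq_sum_card_fiberwise (s := collisions N R η)
      (f := fun q => f q.1) (t := P.image f) fun q hq => by
        rw [mem_coe, collisions, mem_filter, mem_product, ← hP] at hq
        exact mem_image_of_mem f hq.1.1]
    refine sum_congr rfl fun m _ => ?_
    rw [sq, ← card_product]
    refine congrArg card ?_
    ext q
    simp only [mem_product, mem_filter, collisions, ← hP, hf]
    constructor
    · rintro ⟨⟨h1, h2⟩, h3, h4⟩
      exact ⟨⟨⟨h1, h3⟩, h2.trans h4.symm⟩, h2⟩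
    · rintro ⟨⟨⟨h1, h3⟩, h5⟩, h2⟩
      exact ⟨⟨h1, h2⟩, h3, h5.symm.trans h2⟩
  have h3 := sq_sum_le_card_mul_sum_sq (s := P.image f)
    (f := fun m => (P.filter fun z => f z = m).card)
  rw [← h1, h2] at h3
  rw [← hP]
  exact h3.trans (Nat.mul_le_mul_right _ (card_le_card (hf ▸ image_subset_image hsub)))

/-- **The lower bound.** -/
theorem eventually_le_tableSize {ε : ℝ} (hε : 0 < ε) : ∀ᶠ N : ℕ in atTop,
    (N : ℝ) ^ 2 * Real.exp (-(tableExponent + ε) * loglog N) ≤ tableSize N := by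
  obtain ⟨η, hη⟩ : ∃ η, η = min (ε / 9) 1 := ⟨_, rfl⟩
  have hη0 : 0 < η := hη ▸ lt_min (by linarith) one_pos
  have hηε : 9 * η ≤ ε := by linarith [hη ▸ min_le_left (ε / 9) 1]
  obtain ⟨R, hR⟩ : ∃ R : ℕ, R = ⌈1 / η⌉₊ + 1 := ⟨_, rfl⟩
  have hR0 : 2 / (R : ℝ) ≤ 2 * η := by
    rw [div_le_iff₀ (Nat.cast_pos.2 (by omega)), hR]
    push_cast
    have h := Nat.le_ceil (1 / η)
    rw [div_le_iff₀ hη0] at h
    linarith
  obtain ⟨C, hC, hE⟩ := exists_card_collisions_le hη0
  filter_upwards [hE, eventually_many_coprime hη0 (hη ▸ min_le_right _ _) R,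
    tendsto_loglog.eventually_ge_atTop 0,
    (Real.tendsto_exp_atTop.comp (tendsto_loglog.const_mul_atTop hη0)).eventually_ge_atTop C,
    eventually_ge_atTop 1] with N hE hP hL hCL hN
  simp only [Function.comp_apply] at hCL
  obtain ⟨L, hLdef⟩ : ∃ L, L = loglog N := ⟨_, rfl⟩
  rw [← hLdef] at hL hCL hP ⊢
  have hE' := hE R (by omega)
  rw [← hLdef] at hE'
  have hN0 : (0 : ℝ) < N := Nat.cast_pos.2 (by omega)
  have h1 : ((coprimeEvenPairs N R η).card : ℝ) ^ 2 ≤
      tableSize N * (collisions N R η).card := by exact_mod_cast sq_card_le_tableSize_mul N R η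
  refine le_of_mul_le_mul_right ?_ (show 0 < C * N ^ 2 *
    Real.exp ((-tableExponent + 2 * η + 2 / R) * L) by positivity)
  refine le_trans ?_ (((pow_le_pow_left₀ (by positivity) hP 2).trans h1).trans
    (mul_le_mul_of_nonneg_left hE' (Nat.cast_nonneg _)))
  rw [show ((N : ℝ) ^ 2 * Real.exp (-(tableExponent + 2 * η) * L)) ^ 2 = (N : ℝ) ^ 2 *
      (N : ℝ) ^ 2 * Real.exp (-(tableExponent + 2 * η) * L) ^ 2 by ring, ← Real.exp_nat_mul,
    show (N : ℝ) ^ 2 * Real.exp (-(tableExponent + ε) * L) *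
      (C * N ^ 2 * Real.exp ((-tableExponent + 2 * η + 2 / R) * L)) = (N : ℝ) ^ 2 * N ^ 2 *
      (C * (Real.exp (-(tableExponent + ε) * L) *
        Real.exp ((-tableExponent + 2 * η + 2 / R) * L))) by ring, ← Real.exp_add]
  refine mul_le_mul_of_nonneg_left ((mul_le_mul_of_nonneg_right hCL (Real.exp_nonneg _)).trans ?_)
    (by positivity)
  rw [← Real.exp_add]
  refine Real.exp_le_exp.2 ?_
  have h2 := mul_le_mul_of_nonneg_right hR0 hL
  have h3 := mul_le_mul_of_nonneg_right hηε hL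
  push_cast
  linarith

/-- **The exponent is `δ`.** -/
theorem tendsto_tableExponent :
    Tendsto (fun N : ℕ => Real.log ((N : ℝ) ^ 2 / tableSize N) / loglog N) atTop
      (𝓝 tableExponent) := by
  obtain ⟨C, hC, hup⟩ := exists_tableSize_le
  refine Metric.tendsto_nhds.2 fun ε hε => ?_
  filter_upwards [hup, eventually_le_tableSize (half_pos hε),
    tendsto_loglog.eventually_gt_atTop (max 0 (2 * |Real.log C| / ε)),
    eventually_ge_atTop 1] with N h1 h2 hL hN
  have hL0 : 0 < loglog N := lt_of_le_of_lt (le_max_left _ _) hL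
  have hCL := lt_of_le_of_lt (le_max_right _ _) hL
  rw [div_lt_iff₀ hε] at hCL
  have hN0 : (0 : ℝ) < N := Nat.cast_pos.2 hN
  have hA : (0 : ℝ) < tableSize N := lt_of_lt_of_le (by positivity) h2
  have e1 := Real.log_le_log hA h1
  have e2 := Real.log_le_log (by positivity) h2
  rw [Real.log_mul (by positivity) (Real.exp_ne_zero _), Real.log_exp] at e1 e2
  rw [Real.log_mul hC.ne' (by positivity)] at e1
  rw [Real.dist_eq, Real.log_div (by positivity) hA.ne', abs_lt, lt_sub_iff_add_lt,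
    sub_lt_iff_lt_add, lt_div_iff₀ hL0, div_lt_iff₀ hL0]
  have h3 := abs_le.1 (le_refl |Real.log C|)
  have h4 := mul_pos hε hL0
  constructor <;> linarith

end FA.MultTableExponent

end
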