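import Fermat.Agent.HooleyDelta.Mean
import Fermat.Agent.OmegaPhi.PrimeSums
import Mathlib.Analysis.SpecialFunctions.Log.Basic

/-!
# Tilted counts of prime factors and pairs with few of them

With `c = 1 / log 2` and `δ = 1 - c + c log c`: the means of `y ^ ω n · z ^ ω_w n`, `ω_w` counting
the primes `≤ w`, the pairs `(a, b)` with `ω a + ω b ≤ c log log N`, and the reduction of a pair to
a coprime one by its common divisor.
-/

set_option autoImplicit false

noncomputable section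

namespace FA.MultTableExponent

open Finset Filter
open FA.ErdosKac (primesUpTo mem_primesUpTo recipSum loglog tendsto_loglog)
open scoped Topology

/-- `c = 1 / log 2`. -/
def critRate : ℝ := (Real.log 2)⁻¹

/-- The exponent `δ = 1 - (1 + log log 2) / log 2`. -/
def tableExponent : ℝ := 1 - (1 + Real.log (Real.log 2)) / Real.log 2

theorem critRate_mul_log_two : critRate * Real.log 2 = 1 :=
  inv_mul_cancel₀ (Real.log_pos one_lt_two).ne'

theorem critRate_bounds : 1.44 < critRate ∧ critRate < 1.45 := by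
  have h0 : 0 < Real.log 2 := Real.log_pos one_lt_two
  have h1 := critRate_mul_log_two
  constructor
  · refine lt_of_mul_lt_mul_right ?_ h0.le
    linarith [Real.log_two_lt_d9]
  · refine lt_of_mul_lt_mul_right ?_ h0.le
    linarith [Real.log_two_gt_d9]

theorem tableExponent_eq : tableExponent = 1 - critRate + critRate * Real.log critRate := by
  rw [tableExponent, critRate, Real.log_inv]
  ring

theorem exponent_half :
    -(critRate * Real.log (critRate / 2)) + (critRate - 2) = -tableExponent := by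
  rw [tableExponent_eq, Real.log_div (by linarith [critRate_bounds.1]) two_ne_zero]
  linarith [critRate_mul_log_two]

theorem tableExponent_pos : 0 < tableExponent := by
  have hc := critRate_bounds.1
  have h0 : 0 < critRate := by linarith
  have hne : critRate⁻¹ ≠ 1 := inv_ne_one.2 (by linarith)
  have h := Real.log_lt_sub_one_of_pos (inv_pos.2 h0) hne
  rw [Real.log_inv] at h
  have h1 := mul_lt_mul_of_pos_left h h0
  rw [mul_sub, mul_inv_cancel₀ h0.ne', mul_one] at h1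
  rw [tableExponent_eq]
  linarith

theorem tableExponent_lt : tableExponent < 1 / 2 := by
  obtain ⟨hc, hc'⟩ := critRate_bounds
  have h0 : 0 < critRate := by linarith
  have h1 := mul_le_mul_of_nonneg_left (Real.log_le_sub_one_of_pos h0) h0.le
  have h2 := mul_le_mul hc'.le (show critRate - 1 ≤ 0.45 by linarith) (by linarith) (by norm_num)
  rw [tableExponent_eq]
  linarith

/-- The number of primes `≤ w` dividing `n`. -/
def omegaBelow (w n : ℕ) : ℕ := (n.primeFactors.filter fun p => p ≤ w).card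

/-- `y ^ ω n · z ^ ω_w n`. -/
def tilt (y z : ℝ) (w n : ℕ) : ℝ :=
  if n = 0 then 0 else y ^ n.primeFactors.card * z ^ omegaBelow w n

theorem omegaBelow_mono {d n w : ℕ} (hd : d ∣ n) (hn : n ≠ 0) :
    omegaBelow w d ≤ omegaBelow w n :=
  card_le_card (filter_subset_filter _ (Nat.primeFactors_mono hd hn))

theorem omegaBelow_mul {m n : ℕ} (hm : m ≠ 0) (hn : n ≠ 0) (h : m.Coprime n) (w : ℕ) :
    omegaBelow w (m * n) = omegaBelow w m + omegaBelow w n := by
  rw [omegaBelow, omegaBelow, omegaBelow, Nat.primeFactors_mul hm hn, filter_union,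
    card_union_of_disjoint (disjoint_filter_filter h.disjoint_primeFactors)]

theorem card_primeFactors_mul {m n : ℕ} (hm : m ≠ 0) (hn : n ≠ 0) (h : m.Coprime n) :
    (m * n).primeFactors.card = m.primeFactors.card + n.primeFactors.card := by
  rw [Nat.primeFactors_mul hm hn, card_union_of_disjoint h.disjoint_primeFactors]

theorem two_pow_omega_le {n : ℕ} (hn : n ≠ 0) : 2 ^ n.primeFactors.card ≤ n.divisors.card := by
  rw [Nat.card_divisors hn, ← prod_const]
  exact prod_le_prod' fun p hp => Nat.succ_le_succ (Nat.one_le_iff_ne_zero.2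
    (Finsupp.mem_support_iff.1 (Nat.support_factorization n ▸ hp)))

theorem tilt_nonneg {y z : ℝ} (hy : 0 ≤ y) (hz : 0 ≤ z) (w n : ℕ) : 0 ≤ tilt y z w n := by
  rw [tilt]
  split_ifs <;> positivity

/-- **The mean of the tilted weight.** -/
theorem exists_sum_tilt_le : ∃ C : ℝ, 0 < C ∧ ∀ y z : ℝ, 0 ≤ y → 0 ≤ z → y ≤ 2 → y * z ≤ 2 →
    ∀ X w : ℕ, 2 ≤ X → 2 ≤ w → ∑ n ∈ Icc 1 X, tilt y z w n ≤
      C * X * Real.exp ((y - 1) * loglog X + y * (z - 1) * loglog (min w X)) := by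
  obtain ⟨CH, hCH, hH⟩ := FA.HooleyDelta.exists_sum_le
  obtain ⟨C₁, hC₁⟩ := FA.ErdosKac.exists_abs_recipSum_sub_le
  refine ⟨(CH + 1) * Real.exp (4 * C₁), by positivity, fun y z hy hz hy2 hyz X w hX hw => ?_⟩
  have hf0 := tilt_nonneg hy hz w
  have hsum : ∑ n ∈ Icc 1 X, tilt y z w n ≤
      CH * ((X : ℝ) / Real.log X) * Real.exp (∑ p ∈ primesUpTo X, tilt y z w p / p) := by
    refine hH _ hf0 (by simp [tilt, omegaBelow]) (fun m n hmn => ?_) (fun n => ?_) X hX
    · rcases eq_or_ne m 0 with rfl | hm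
      · simp [tilt]
      rcases eq_or_ne n 0 with rfl | hn
      · simp [tilt]
      rw [tilt, tilt, tilt, if_neg hm, if_neg hn, if_neg (Nat.mul_ne_zero hm hn),
        omegaBelow_mul hm hn hmn, card_primeFactors_mul hm hn hmn, pow_add, pow_add]
      ring
    · rw [tilt]
      split_ifs with hn
      · exact Nat.cast_nonneg _
      refine le_trans ?_ (Nat.cast_le.2 (two_pow_omega_le hn))
      rw [Nat.cast_pow, Nat.cast_ofNat]
      obtain ⟨i, hi⟩ : ∃ i, n.primeFactors.card = omegaBelow w n + i :=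
        Nat.exists_eq_add_of_le (card_filter_le _ _)
      rw [hi, pow_add, pow_add, mul_right_comm, ← mul_pow]
      exact mul_le_mul (pow_le_pow_left₀ (by positivity) hyz _) (pow_le_pow_left₀ hy hy2 i)
        (by positivity) (by positivity)
  have hexp : ∑ p ∈ primesUpTo X, tilt y z w p / p =
      y * recipSum X + y * (z - 1) * recipSum (min w X) := by
    have e : primesUpTo (min w X) = (primesUpTo X).filter fun p => p ≤ w := by
      ext p
      simp only [mem_filter, mem_primesUpTo, le_min_iff]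
      tauto
    rw [recipSum, recipSum, e, sum_filter, mul_sum, mul_sum, ← sum_add_distrib]
    refine sum_congr rfl fun p hp => ?_
    have hpp := (mem_primesUpTo.1 hp).1
    rw [tilt, if_neg hpp.ne_zero, omegaBelow, hpp.primeFactors, filter_singleton, card_singleton,
      div_eq_mul_inv]
    split_ifs with h <;> simp
    ring
  rw [hexp] at hsum
  have hm2 : 2 ≤ min w X := le_min hw hX
  obtain ⟨hX1, hX2⟩ := abs_le.1 (hC₁ X hX)
  obtain ⟨hm1, hm3⟩ := abs_le.1 (hC₁ (min w X) hm2)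
  have hC0 : 0 ≤ C₁ := (abs_nonneg _).trans (hC₁ 2 le_rfl)
  have hb : y * recipSum X + y * (z - 1) * recipSum (min w X) ≤
      y * loglog X + y * (z - 1) * loglog (min w X) + 4 * C₁ := by
    rw [loglog, loglog]
    have h1 := mul_le_mul_of_nonneg_left (show recipSum X - Real.log (Real.log X) ≤ C₁ by
      linarith) hy
    have h2 := mul_le_mul_of_nonneg_left (show recipSum (min w X) -
      Real.log (Real.log (min w X : ℕ)) ≤ C₁ by linarith) (mul_nonneg hy hz)
    have h3 := mul_le_mul_of_nonneg_left (show -(recipSum (min w X) -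
      Real.log (Real.log (min w X : ℕ))) ≤ C₁ by linarith) hy
    have h4 := mul_le_mul_of_nonneg_right hy2 hC0
    have h5 := mul_le_mul_of_nonneg_right hyz hC0
    rcases le_total 1 z with hz1 | hz1
    · have h6 := mul_le_mul_of_nonneg_left (show recipSum (min w X) -
        Real.log (Real.log (min w X : ℕ)) ≤ C₁ by linarith)
        (mul_nonneg hy (sub_nonneg.2 hz1))
      have h7 := mul_nonneg (mul_nonneg hy (sub_nonneg.2 hz1)) hC0
      have h8 := mul_nonneg hy hC0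
      linarith
    · have h6 := mul_le_mul_of_nonneg_left (show -(recipSum (min w X) -
        Real.log (Real.log (min w X : ℕ))) ≤ C₁ by linarith)
        (mul_nonneg hy (sub_nonneg.2 hz1))
      have h7 := mul_nonneg (mul_nonneg hy hz) hC0
      linarith
  have hlX : 0 < Real.log X := Real.log_pos (Nat.one_lt_cast.2 (by omega))
  refine hsum.trans ((mul_le_mul_of_nonneg_left (Real.exp_le_exp.2 hb) (by positivity)).trans ?_)
  refine le_trans (le_of_eq ?_) (mul_le_mul_of_nonneg_right (mul_le_mul_of_nonneg_right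
    (mul_le_mul_of_nonneg_right (le_add_of_nonneg_right zero_le_one)
      (Real.exp_nonneg (4 * C₁))) (Nat.cast_nonneg X)) (Real.exp_nonneg _))
  rw [show (y - 1) * loglog X + y * (z - 1) * loglog (min w X) =
    (y * loglog X + y * (z - 1) * loglog (min w X)) + -loglog X by ring]
  simp only [Real.exp_add, Real.exp_neg]
  rw [show Real.exp (loglog X) = Real.log X from Real.exp_log hlX]
  ring

/-- The mean of `y ^ ω n`. -/
theorem exists_sum_pow_le : ∃ C : ℝ, 0 < C ∧ ∀ y : ℝ, 0 ≤ y → y ≤ 2 → ∀ X : ℕ, 2 ≤ X →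
    ∑ n ∈ Icc 1 X, y ^ n.primeFactors.card ≤ C * X * Real.exp ((y - 1) * loglog X) := by
  obtain ⟨C, hC, h⟩ := exists_sum_tilt_le
  refine ⟨C, hC, fun y hy hy2 X hX => le_of_eq_of_le (sum_congr rfl fun n hn => ?_)
    ((h y 1 hy zero_le_one hy2 (by linarith) X X hX hX).trans_eq (by simp))⟩
  rw [tilt, if_neg (Nat.one_le_iff_ne_zero.1 (mem_Icc.1 hn).1), one_pow, mul_one]

/-- The pairs in `[1, X]²` with `ω a + ω b ≤ K`. -/
def lowPairs (X : ℕ) (K : ℝ) : Finset (ℕ × ℕ) :=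
  (Icc 1 X ×ˢ Icc 1 X).filter fun p =>
    ((p.1.primeFactors.card + p.2.primeFactors.card : ℕ) : ℝ) ≤ K

theorem mem_lowPairs {X : ℕ} {K : ℝ} {a b : ℕ} : (a, b) ∈ lowPairs X K ↔
    (1 ≤ a ∧ a ≤ X) ∧ (1 ≤ b ∧ b ≤ X) ∧
      ((a.primeFactors.card + b.primeFactors.card : ℕ) : ℝ) ≤ K := by
  simp only [lowPairs, mem_filter, mem_product, mem_Icc, and_assoc]

/-- A count of pairs by exponential moments. -/
theorem card_mul_le_sum_sq {f : ℕ → ℝ} (hf : ∀ n, 0 ≤ f n) {X : ℕ} {S : Finset (ℕ × ℕ)}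
    (hS : S ⊆ Icc 1 X ×ˢ Icc 1 X) {m : ℝ} (hm : ∀ p ∈ S, m ≤ f p.1 * f p.2) :
    (S.card : ℝ) * m ≤ (∑ n ∈ Icc 1 X, f n) ^ 2 := by
  rw [← nsmul_eq_mul, sq, sum_mul_sum, ← sum_product']
  exact (card_nsmul_le_sum _ _ _ hm).trans
    (sum_le_sum_of_subset_of_nonneg hS fun p _ _ => mul_nonneg (hf _) (hf _))

theorem card_lowPairs_le {y : ℝ} (hy : 0 < y) (hy1 : y ≤ 1) (X : ℕ) (K : ℝ) :
    ((lowPairs X K).card : ℝ) ≤
      Real.exp (-(K * Real.log y)) * (∑ n ∈ Icc 1 X, y ^ n.primeFactors.card) ^ 2 := by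
  have h := card_mul_le_sum_sq (f := fun n => y ^ n.primeFactors.card) (fun n => by positivity)
    (filter_subset (fun p : ℕ × ℕ => ((p.1.primeFactors.card + p.2.primeFactors.card : ℕ) : ℝ) ≤ K)
      (Icc 1 X ×ˢ Icc 1 X)) (m := Real.exp (K * Real.log y)) fun p hp => by
        rw [← pow_add, ← Real.rpow_natCast, Real.rpow_def_of_pos hy, mul_comm (Real.log y)]
        exact Real.exp_le_exp.2 (mul_le_mul_of_nonpos_right (mem_filter.1 hp).2
          (Real.log_nonpos hy.le hy1))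
  rw [← lowPairs] at h
  rw [Real.exp_neg, inv_mul_eq_div, le_div_iff₀ (Real.exp_pos _)]
  exact h

/-- **Reduction by the common divisor.** -/
theorem card_le_sum_of_gcd {N : ℕ} {S : Finset (ℕ × ℕ)} {T : ℕ → Finset (ℕ × ℕ)}
    (hS : S ⊆ Icc 1 N ×ˢ Icc 1 N)
    (hT : ∀ a b g u v : ℕ, (a, b) ∈ S → 1 ≤ g → a = g * u → b = g * v → u.Coprime v →
      (u, v) ∈ T g) :
    S.card ≤ ∑ g ∈ Icc 1 N, (T g).card := by
  rw [← card_sigma]
  refine card_le_card_of_injOn (fun p => (⟨Nat.gcd p.1 p.2,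
    (p.1 / Nat.gcd p.1 p.2, p.2 / Nat.gcd p.1 p.2)⟩ : Σ _ : ℕ, ℕ × ℕ)) (fun p hp => ?_)
    fun p _ q _ h => ?_
  · obtain ⟨ha, -⟩ := mem_product.1 (hS hp)
    rw [mem_Icc] at ha
    have hg : 0 < Nat.gcd p.1 p.2 := Nat.gcd_pos_of_pos_left _ ha.1
    simp only [coe_sigma, Set.mem_sigma_iff, mem_coe, mem_Icc]
    exact ⟨⟨hg, (Nat.le_of_dvd ha.1 (Nat.gcd_dvd_left _ _)).trans ha.2⟩,
      hT p.1 p.2 _ _ _ hp hg (Nat.mul_div_cancel' (Nat.gcd_dvd_left _ _)).symm
        (Nat.mul_div_cancel' (Nat.gcd_dvd_right _ _)).symm (Nat.coprime_div_gcd_div_gcd hg)⟩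
  · simp only [Sigma.mk.injEq, heq_eq_eq, Prod.mk.injEq] at h
    obtain ⟨hg, h1, h2⟩ := h
    refine Prod.ext ?_ ?_
    · rw [← Nat.mul_div_cancel' (Nat.gcd_dvd_left p.1 p.2),
        ← Nat.mul_div_cancel' (Nat.gcd_dvd_left q.1 q.2), h1, hg]
    · rw [← Nat.mul_div_cancel' (Nat.gcd_dvd_right p.1 p.2),
        ← Nat.mul_div_cancel' (Nat.gcd_dvd_right q.1 q.2), h2, hg]

/-- Above `√N` the double logarithm hardly moves. -/
theorem eventually_sqrt_scale : ∀ᶠ N : ℕ in atTop, 2 ≤ Nat.sqrt N ∧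
    (Real.sqrt N)⁻¹ ≤ Real.exp (-2 * loglog N) ∧
    ∀ X : ℕ, Nat.sqrt N ≤ X → loglog N - 2 ≤ loglog X := by
  have hl : Tendsto (fun N : ℕ => Real.log N) atTop atTop :=
    Real.tendsto_log_atTop.comp tendsto_natCast_atTop_atTop
  filter_upwards [hl.eventually ((Real.isLittleO_log_id_atTop).def
      (show (0 : ℝ) < 1 / 8 by norm_num)), hl.eventually_ge_atTop 8, eventually_ge_atTop 16]
    with N hlog hℓ8 hN
  obtain ⟨ℓ, hℓ⟩ : ∃ ℓ, ℓ = Real.log N := ⟨_, rfl⟩
  rw [← hℓ] at hlog hℓ8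
  rw [id, Real.norm_eq_abs, Real.norm_of_nonneg (show 0 ≤ ℓ by linarith)] at hlog
  have hN0 : (0 : ℝ) < N := Nat.cast_pos.2 (by omega)
  refine ⟨Nat.le_sqrt.2 (by omega), ?_, fun X hX => ?_⟩
  · rw [Real.sqrt_eq_rpow, Real.rpow_def_of_pos hN0, ← Real.exp_neg, loglog, ← hℓ]
    exact Real.exp_le_exp.2 (by linarith [le_abs_self (Real.log ℓ)])
  · have hs : 2 ≤ Nat.sqrt N := Nat.le_sqrt.2 (by omega)
    have h1 : (N : ℝ) ≤ (2 * (X : ℝ)) ^ 2 := by
      have h := Nat.lt_succ_sqrt' N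
      have h2 : Nat.sqrt N + 1 ≤ 2 * X := by omega
      have h3 : N ≤ (2 * X) ^ 2 := le_trans (le_of_lt h) (Nat.pow_le_pow_left h2 2)
      exact_mod_cast h3
    have hX0 : (0 : ℝ) < X := Nat.cast_pos.2 (by omega)
    have h4 := Real.log_le_log hN0 h1
    rw [Real.log_pow, Real.log_mul two_ne_zero hX0.ne', ← hℓ] at h4
    push_cast at h4
    have h5 := Real.log_le_log (show 0 < ℓ / 4 by linarith)
      (show ℓ / 4 ≤ Real.log X by linarith [Real.log_two_lt_d9])
    rw [Real.log_div (by linarith) (by norm_num), show (4 : ℝ) = 2 ^ 2 by norm_num,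
      Real.log_pow] at h5
    rw [loglog, loglog, ← hℓ]
    push_cast at h5
    linarith [Real.log_two_lt_d9]

/-- **The pairs with `ω a + ω b ≤ c log log N` over the large common divisors.** -/
theorem exists_sum_lowPairs_le : ∃ C : ℝ, 0 < C ∧ ∀ᶠ N : ℕ in atTop, ∀ G : ℕ,
    ∑ g ∈ Icc (G + 1) N, ((lowPairs (N / g) (critRate * loglog N)).card : ℝ) ≤
      C * N ^ 2 * (Real.exp (-tableExponent * loglog N) / ((G : ℝ) + 1) +
        Real.exp (-2 * loglog N)) := by
  obtain ⟨CT, hCT, hT⟩ := exists_sum_pow_le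
  obtain ⟨y, hy⟩ : ∃ y, y = critRate / 2 := ⟨_, rfl⟩
  obtain ⟨hc, hc'⟩ := critRate_bounds
  have hy0 : 0 < y := by linarith
  have hy1 : y ≤ 1 := by linarith
  refine ⟨2 * CT ^ 2 * Real.exp 4 + 4, by positivity, ?_⟩
  filter_upwards [eventually_sqrt_scale, tendsto_loglog.eventually_ge_atTop 0,
    eventually_ge_atTop 4] with N ⟨hs, hsmall, hscale⟩ hL hN G
  obtain ⟨L, hLdef⟩ : ∃ L, L = loglog N := ⟨_, rfl⟩
  rw [← hLdef] at hL hscale hsmall ⊢
  have hN0 : (0 : ℝ) < N := Nat.cast_pos.2 (by omega)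
  have hbig : ∀ g, 1 ≤ g → g ≤ Nat.sqrt N → ((lowPairs (N / g) (critRate * L)).card : ℝ) ≤
      CT ^ 2 * Real.exp 4 * N ^ 2 * Real.exp (-tableExponent * L) * ((g : ℝ) ^ 2)⁻¹ := by
    intro g hg hgs
    have hX : Nat.sqrt N ≤ N / g := (Nat.le_div_iff_mul_le hg).2
      ((Nat.mul_le_mul_left _ hgs).trans (Nat.sqrt_le N))
    have hX2 : 2 ≤ N / g := hs.trans hX
    have hXN : ((N / g : ℕ) : ℝ) ≤ N * (g : ℝ)⁻¹ := Nat.cast_div_le.trans_eq (div_eq_mul_inv _ _)
    have h1 := hT y hy0.le (by linarith) (N / g) hX2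
    have h2 : Real.exp ((y - 1) * loglog (N / g : ℕ)) ≤ Real.exp ((y - 1) * (L - 2)) :=
      Real.exp_le_exp.2 (mul_le_mul_of_nonpos_left (hscale _ hX) (by linarith))
    refine (card_lowPairs_le hy0 hy1 _ _).trans ?_
    refine (mul_le_mul_of_nonneg_left (pow_le_pow_left₀ (sum_nonneg fun n _ => by positivity)
      (h1.trans (mul_le_mul (mul_le_mul_of_nonneg_left hXN hCT.le) h2 (Real.exp_nonneg _)
        (by positivity))) 2) (Real.exp_nonneg _)).trans ?_
    rw [show Real.exp (-(critRate * L * Real.log y)) *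
        (CT * (N * (g : ℝ)⁻¹) * Real.exp ((y - 1) * (L - 2))) ^ 2 =
      CT ^ 2 * N ^ 2 * ((g : ℝ) ^ 2)⁻¹ * (Real.exp (-(critRate * L * Real.log y)) *
        Real.exp ((y - 1) * (L - 2)) ^ 2) by ring, ← Real.exp_nat_mul, ← Real.exp_add]
    rw [show CT ^ 2 * Real.exp 4 * (N : ℝ) ^ 2 * Real.exp (-tableExponent * L) *
        ((g : ℝ) ^ 2)⁻¹ = CT ^ 2 * N ^ 2 * ((g : ℝ) ^ 2)⁻¹ *
          (Real.exp 4 * Real.exp (-tableExponent * L)) by ring, ← Real.exp_add]
    refine mul_le_mul_of_nonneg_left (Real.exp_le_exp.2 ?_) (by positivity)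
    rw [← exponent_half, hy]
    push_cast
    linarith
  have hsm : ∀ g, Nat.sqrt N < g → ((lowPairs (N / g) (critRate * L)).card : ℝ) ≤
      N ^ 2 * ((g : ℝ) ^ 2)⁻¹ := fun g _ => by
    refine (Nat.cast_le.2 (card_filter_le _ _)).trans ?_
    rw [card_product, Nat.card_Icc, Nat.add_sub_cancel, Nat.cast_mul]
    refine (mul_le_mul Nat.cast_div_le Nat.cast_div_le (by positivity) (by positivity)).trans ?_
    exact le_of_eq (by ring)
  rw [← sum_filter_add_sum_filter_not (Icc (G + 1) N) (fun g => g ≤ Nat.sqrt N)]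
  have hE := Real.exp_nonneg (-tableExponent * L)
  refine (add_le_add ((sum_le_sum (g := fun g : ℕ =>
      CT ^ 2 * Real.exp 4 * N ^ 2 * Real.exp (-tableExponent * L) * ((g : ℝ) ^ 2)⁻¹)
      fun g hg => ?_).trans_eq (mul_sum _ _ _).symm)
    ((sum_le_sum fun g hg => hsm g (not_le.1 (mem_filter.1 hg).2)).trans_eq
      (mul_sum _ _ _).symm)).trans ?_
  · obtain ⟨hg, hgs⟩ := mem_filter.1 hg
    exact hbig g (le_trans (by omega) (mem_Icc.1 hg).1) hgs
  have hA : ∑ g ∈ (Icc (G + 1) N).filter (fun g => g ≤ Nat.sqrt N), ((g : ℝ) ^ 2)⁻¹ ≤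
      2 / ((G : ℝ) + 1) :=
    (sum_le_sum_of_subset_of_nonneg (t := Ioo G (N + 1)) (fun g hg => mem_Ioo.2
      ⟨(mem_Icc.1 (mem_filter.1 hg).1).1, Nat.lt_succ_of_le (mem_Icc.1 (mem_filter.1 hg).1).2⟩)
      fun _ _ _ => by positivity).trans (sum_Ioo_inv_sq_le G (N + 1))
  have hB : ∑ g ∈ (Icc (G + 1) N).filter (fun g => ¬g ≤ Nat.sqrt N), ((g : ℝ) ^ 2)⁻¹ ≤
      4 * Real.exp (-2 * L) := by
    refine (sum_le_sum_of_subset_of_nonneg (t := Ioo (Nat.sqrt N) (N + 1)) (fun g hg =>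
      mem_Ioo.2 ⟨not_le.1 (mem_filter.1 hg).2,
        Nat.lt_succ_of_le (mem_Icc.1 (mem_filter.1 hg).1).2⟩)
      fun _ _ _ => by positivity).trans ((sum_Ioo_inv_sq_le _ (N + 1)).trans ?_)
    have h : Real.sqrt N ≤ (Nat.sqrt N : ℝ) + 1 := Real.real_sqrt_le_nat_sqrt_succ
    calc (2 : ℝ) / ((Nat.sqrt N : ℝ) + 1) ≤ 2 / Real.sqrt N :=
          div_le_div_of_nonneg_left two_pos.le (Real.sqrt_pos.2 hN0) h
      _ = 2 * (Real.sqrt N)⁻¹ := div_eq_mul_inv _ _
      _ ≤ 4 * Real.exp (-2 * L) := by linarith [Real.exp_nonneg (-2 * L)]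
  have h1 := mul_le_mul_of_nonneg_left hA
    (show 0 ≤ CT ^ 2 * Real.exp 4 * N ^ 2 * Real.exp (-tableExponent * L) by positivity)
  have h2 := mul_le_mul_of_nonneg_left hB (show 0 ≤ (N : ℝ) ^ 2 by positivity)
  have h3 : 0 ≤ CT ^ 2 * Real.exp 4 * N ^ 2 * Real.exp (-2 * L) := by positivity
  have h4 : 0 ≤ (N : ℝ) ^ 2 * (Real.exp (-tableExponent * L) / ((G : ℝ) + 1)) := by positivity
  rw [show (2 * CT ^ 2 * Real.exp 4 + 4) * (N : ℝ) ^ 2 *
      (Real.exp (-tableExponent * L) / ((G : ℝ) + 1) + Real.exp (-2 * L)) =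
    CT ^ 2 * Real.exp 4 * N ^ 2 * Real.exp (-tableExponent * L) * (2 / ((G : ℝ) + 1)) +
      4 * ((N : ℝ) ^ 2 * (Real.exp (-tableExponent * L) / ((G : ℝ) + 1))) +
      2 * (CT ^ 2 * Real.exp 4 * N ^ 2 * Real.exp (-2 * L)) +
      (N : ℝ) ^ 2 * (4 * Real.exp (-2 * L)) by ring]
  linarith only [h1, h2, h3, h4]

end FA.MultTableExponent

end
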